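/-
helper20 (P-ORD, block B1, row 1162 B1-GAUSS): THE SOFT FIELDS of `NodalRvHyp` for the concrete
nodal data `nmG` of `X₀(M p)` (helper84, `Fermat.Agent.H84.ORD.NodalModel`).

`nmSoft : NmSoftStatement M p` (unconditional): `const`, `red_const`, `norm`, `inv`, `surj` at
both Gauss rings `V_∞ = gaussOBar (M p) A`, `V_0 = W⁻¹ V_∞`, and `V_∞ ≠ V_0`.

* `V_∞` : helper66's Gauss ring API (`algebraMap_mem_gaussOBar_iff`, `gaussRedBar_algebraMap`,
  `gaussNorm`, `inv_mem_gaussOBar`), `nmRedOo_surjective`;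
* `V_0` : transport along the involution `W = nmW`;
* `ne` : `f = β j - (α j)^p` (`q`-expansion `j(q^p) - j(q)^p = uS`) has `red_∞ f = 0`, while
  `W f = α j - (β j)^p` (`q`-expansion `uS'`) has `red_∞ (W f) ≠ 0` (helper42's `uS_eq_zero`,
  `uS'_ne_zero`); so `f⁻¹ ∈ V_0 ∖ V_∞`.
-/
import Fermat.Agent.H84.ORD.NodalModelRows
import Fermat.Agent.H66.ESD.GaussNorm
import Fermat.Agent.H42.SS.QExp2GI
import Fermat.Agent.H18.ORD.NodalBal

set_option autoImplicit false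
set_option linter.unusedSectionVars false
set_option linter.style.haveILetI false
set_option synthInstance.maxHeartbeats 400000

noncomputable section

open AlgebraicCurve ModularCurve

namespace Fermat.Agent.H20.ORD

open Fermat.Agent.H72.FF Fermat.Agent.H18.ORD Fermat.Agent.H66 Fermat.Agent.H84.ORD

section Transport

variable (M p : ℕ) [NeZero M] [NeZero p] (hcop : Nat.Coprime M p) (A : ValuationSubring Qb)

/-- `W` is an involution. -/
theorem nmSoft_W_W (z : FLb (M * p)) : nmW M p hcop (nmW M p hcop z) = z :=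
  (nmW_spec M p hcop).2.2.2 z

/-- `W` fixes the constants. -/
theorem nmSoft_W_const (c : Qb) :
    nmW M p hcop (algebraMap Qb (FLb (M * p)) c) = algebraMap Qb (FLb (M * p)) c :=
  (nmW M p hcop).commutes c

/-- `red_∞` only depends on the underlying element. -/
theorem nmSoft_redOo_congr {x y : FLb (M * p)} (hx : x ∈ gaussOBar (M * p) A)
    (hy : y ∈ gaussOBar (M * p) A) (h : x = y) :
    nmRedOo (M * p) A ⟨x, hx⟩ = nmRedOo (M * p) A ⟨y, hy⟩ := by
  subst h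
  rfl

/-- `W u ∈ V_0` for `u ∈ V_∞`. -/
theorem nmSoft_W_mem_V0 {u : FLb (M * p)} (hu : u ∈ gaussOBar (M * p) A) :
    nmW M p hcop u ∈ nmV0 M p hcop A := by
  rw [mem_nmV0_iff, nmSoft_W_W]
  exact hu

/-- `red_0 (W u) = red_∞ u`. -/
theorem nmSoft_red0_W {u : FLb (M * p)} (hu : u ∈ gaussOBar (M * p) A) :
    nmRed0 M p hcop A ⟨nmW M p hcop u, nmSoft_W_mem_V0 M p hcop A hu⟩ =
      nmRedOo (M * p) A ⟨u, hu⟩ := by
  rw [nmRed0_apply]
  exact nmSoft_redOo_congr M p A _ hu (nmSoft_W_W M p hcop u)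

/-- `red_0 f = red_∞ g` if `W f = g`. -/
theorem nmSoft_red0_eq {f g : FLb (M * p)} (hf : f ∈ nmV0 M p hcop A)
    (hg : g ∈ gaussOBar (M * p) A) (h : nmW M p hcop f = g) :
    nmRed0 M p hcop A ⟨f, hf⟩ = nmRedOo (M * p) A ⟨g, hg⟩ := by
  subst h
  rfl

end Transport

section Sep

variable (M p : ℕ) [NeZero M] [NeZero p] (hcop : Nat.Coprime M p) (A : ValuationSubring Qb)

/-- the function `j` of level `M` -/
def nmSoftJ : ↥(modularFunctionFieldBar M) :=
  ⟨qExpand Qb 1 (jqModC Qb), qExpand_jqModC_mem_bar M (one_dvd M)⟩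

theorem coe_nmSoftJ :
    ((nmSoftJ M : ↥(modularFunctionFieldBar M)) : LaurentSeries Qb) = vIota A (jqModC ↥A) := by
  have h := qExpand_jqModC_eq_vIota A 1
  rw [qExpand_one_apply, qExpand_one_apply] at h
  show qExpand Qb 1 (jqModC Qb) = _
  rw [qExpand_one_apply]
  exact h

/-- `f = β j - (α j)^p`, with `q`-expansion `j(q^p) - j(q)^p` -/
def nmSoftF : FLb (M * p) :=
  heckeBetaBar Qb M p (nmSoftJ M) - (heckeAlphaBar Qb M p (nmSoftJ M)) ^ p

/-- `g = α j - (β j)^p = W f`, with `q`-expansion `j(q) - j(q^p)^p` -/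
def nmSoftG : FLb (M * p) :=
  heckeAlphaBar Qb M p (nmSoftJ M) - (heckeBetaBar Qb M p (nmSoftJ M)) ^ p

theorem coe_nmSoftF :
    ((nmSoftF M p : FLb (M * p)) : LaurentSeries Qb) =
      vIota A (Fermat.Agent.H42.SS.uS ↥A p) := by
  rw [nmSoftF, Fermat.Agent.H42.SS.uS, map_sub, map_pow]
  push_cast
  rw [coe_heckeBetaBar, coe_heckeAlphaBar, coe_nmSoftJ M A, vIota, coeffMap_qExpand]

theorem coe_nmSoftG :
    ((nmSoftG M p : FLb (M * p)) : LaurentSeries Qb) =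
      vIota A (Fermat.Agent.H42.SS.uS' ↥A p) := by
  rw [nmSoftG, Fermat.Agent.H42.SS.uS', map_sub, map_pow]
  push_cast
  rw [coe_heckeBetaBar, coe_heckeAlphaBar, coe_nmSoftJ M A, vIota, coeffMap_qExpand]

theorem nmW_nmSoftF : nmW M p hcop (nmSoftF M p) = nmSoftG M p := by
  rw [nmSoftF, nmSoftG, map_sub, map_pow, (nmW_spec M p hcop).2.1, (nmW_spec M p hcop).2.2.1]

theorem nmSoftF_mem : nmSoftF M p ∈ gaussOBar (M * p) A :=
  mem_gaussOBar_of_eq_vIota (M * p) A (coe_nmSoftF M p A)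

theorem nmSoftG_mem : nmSoftG M p ∈ gaussOBar (M * p) A :=
  mem_gaussOBar_of_eq_vIota (M * p) A (coe_nmSoftG M p A)

/-- `red_∞ f = 0` (Frobenius: `j(q^p) = j(q)^p` in characteristic `p`). -/
theorem nmSoft_red_F (hp : p.Prime) (hA : A.LiesOverPrime p) :
    nmRedOo (M * p) A ⟨nmSoftF M p, nmSoftF_mem M p A⟩ = 0 := by
  haveI : Fact p.Prime := ⟨hp⟩
  haveI : CharP (kRes A) p := nb_charP hp hA (kRes A)
  rw [nmRedOo_eq_zero_iff]
  have h := gaussRedBar_of_eq_vIota (M * p) A (coe_nmSoftF M p A)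
  rw [vRho, Fermat.Agent.H42.SS.coeffMap_uS, Fermat.Agent.H42.SS.uS_eq_zero] at h
  exact h

/-- `red_∞ g ≠ 0`. -/
theorem nmSoft_red_G (hp : p.Prime) (hA : A.LiesOverPrime p) :
    nmRedOo (M * p) A ⟨nmSoftG M p, nmSoftG_mem M p A⟩ ≠ 0 := by
  haveI : Fact p.Prime := ⟨hp⟩
  haveI : CharP (kRes A) p := nb_charP hp hA (kRes A)
  rw [Ne, nmRedOo_eq_zero_iff]
  have h := gaussRedBar_of_eq_vIota (M * p) A (coe_nmSoftG M p A)
  rw [vRho, Fermat.Agent.H42.SS.coeffMap_uS'] at h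
  rw [h]
  exact Fermat.Agent.H42.SS.uS'_ne_zero p (kRes A)

end Sep

section Main

/-- **B1-GAUSS** : the soft fields of `NodalRvHyp` for the nodal data `nmG` of `X₀(M p)`. -/
theorem nmSoft (M p : ℕ) [NeZero M] [NeZero p] : NmSoftStatement M p := by
  intro A h
  have hp : p.Prime := h.prime
  haveI : Fact p.Prime := ⟨hp⟩
  have hA : A.LiesOverPrime p := h.liesOver
  -- inv at `∞`
  have hinvOo : ∀ u : gaussOBar (M * p) A, nmRedOo (M * p) A u ≠ 0 →
      (u : FLb (M * p))⁻¹ ∈ gaussOBar (M * p) A := by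
    intro u hu
    exact inv_mem_gaussOBar (M * p) A (fun h0 => hu ((nmRedOo_eq_zero_iff (M * p) A u).2 h0))
  -- norm at `∞`
  have hnormOo : ∀ φ : FLb (M * p), φ ≠ 0 → ∃ (c : Qb) (u : gaussOBar (M * p) A), c ≠ 0 ∧
      nmRedOo (M * p) A u ≠ 0 ∧ φ = algebraMap Qb (FLb (M * p)) c * (u : FLb (M * p)) := by
    intro φ hφ
    obtain ⟨c, u, hc, hu, hcu⟩ := gaussNorm (M * p) p A hA φ hφ
    refine ⟨c, u, hc, fun h0 => hu ((nmRedOo_eq_zero_iff (M * p) A u).1 h0), ?_⟩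
    rw [hcu, Algebra.smul_def]
  -- inv at `0`
  have hinvZero : ∀ u : nmV0 M p h.cop A, nmRed0 M p h.cop A u ≠ 0 →
      (u : FLb (M * p))⁻¹ ∈ nmV0 M p h.cop A := by
    intro u hu
    rw [mem_nmV0_iff, map_inv₀]
    rw [nmRed0_apply] at hu
    exact hinvOo ⟨_, u.2⟩ hu
  refine ⟨fun c => algebraMap_mem_gaussOBar_iff (M * p) A c, ?_, ?_, ?_, hnormOo, ?_, hinvOo,
    hinvZero, nmRedOo_surjective (M * p) A, ?_, ?_⟩
  · -- const_zero
    intro c
    rw [mem_nmV0_iff, nmSoft_W_const]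
    exact algebraMap_mem_gaussOBar_iff (M * p) A c
  · -- red_const_oo
    intro c hc
    apply Subtype.ext
    rw [coe_nmRedOo, coe_nmAlgebraMap]
    exact gaussRedBar_algebraMap (M * p) A c.2
  · -- red_const_zero
    intro c hc
    have hc' : algebraMap Qb (FLb (M * p)) (c : Qb) ∈ gaussOBar (M * p) A :=
      (algebraMap_mem_gaussOBar_iff (M * p) A _).2 c.2
    rw [nmSoft_red0_eq M p h.cop A hc hc' (nmSoft_W_const M p h.cop (c : Qb))]
    apply Subtype.ext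
    rw [coe_nmRedOo, coe_nmAlgebraMap]
    exact gaussRedBar_algebraMap (M * p) A c.2
  · -- norm_zero
    intro φ hφ
    have hWφ : nmW M p h.cop φ ≠ 0 := by
      intro h0
      apply hφ
      have := congrArg (nmW M p h.cop) h0
      rwa [nmSoft_W_W, map_zero] at this
    obtain ⟨c, u, hc, hu, hcu⟩ := hnormOo _ hWφ
    refine ⟨c, ⟨nmW M p h.cop (u : FLb (M * p)), nmSoft_W_mem_V0 M p h.cop A u.2⟩, hc, ?_, ?_⟩
    · rw [nmSoft_red0_W M p h.cop A u.2]
      exact hu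
    · have := congrArg (nmW M p h.cop) hcu
      rw [nmSoft_W_W, map_mul, nmSoft_W_const] at this
      exact this
  · -- surj_zero
    intro z
    obtain ⟨u, rfl⟩ := nmRedOo_surjective (M * p) A z
    exact ⟨⟨nmW M p h.cop (u : FLb (M * p)), nmSoft_W_mem_V0 M p h.cop A u.2⟩,
      nmSoft_red0_W M p h.cop A u.2⟩
  · -- ne
    intro heq
    have hF : nmSoftF M p ∈ gaussOBar (M * p) A := nmSoftF_mem M p A
    have hF0 : nmSoftF M p ∈ nmV0 M p h.cop A := by
      rw [mem_nmV0_iff, nmW_nmSoftF]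
      exact nmSoftG_mem M p A
    have hr0 : nmRed0 M p h.cop A ⟨nmSoftF M p, hF0⟩ ≠ 0 := by
      rw [nmSoft_red0_eq M p h.cop A hF0 (nmSoftG_mem M p A) (nmW_nmSoftF M p h.cop)]
      exact nmSoft_red_G M p A hp hA
    have hinv : (nmSoftF M p)⁻¹ ∈ gaussOBar (M * p) A := by
      rw [heq]
      exact hinvZero ⟨_, hF0⟩ hr0
    have hne : nmSoftF M p ≠ 0 := by
      intro h0
      apply hr0
      have : (⟨nmSoftF M p, hF0⟩ : nmV0 M p h.cop A) = 0 := Subtype.ext h0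
      rw [this, map_zero]
    have hmul : (⟨nmSoftF M p, hF⟩ : gaussOBar (M * p) A) * ⟨(nmSoftF M p)⁻¹, hinv⟩ = 1 :=
      Subtype.ext (mul_inv_cancel₀ hne)
    have h1 := congrArg (nmRedOo (M * p) A) hmul
    rw [map_mul, nmSoft_red_F M p A hp hA, zero_mul, map_one] at h1
    exact zero_ne_one h1

end Main

end Fermat.Agent.H20.ORD
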