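/-
helper20 (P-ORD, owner of (a)): THE KUMMER FORM OF (a), ABSTRACT AND UNCONDITIONAL.

Setting: `F / K` a function field (any fields), `A` a valuation ring of the constants,
`V₁ V₂` two valuation rings of `F` (think: the two Gauss valuations `w_∞`, `w_0` of
`ℚ̄(X₀(N))`, `p ∥ N`), `γ` a semilinear automorphism of `F` (think: an element of inertia).

* `IsOneUnit V g` : `g ≡ 1` modulo the maximal ideal of `V`  (+ calculus);
* `kummerOneUnits K m V₁ V₂ : AddSubgroup (Pic0 K F)` : the classes `[D]`, `deg D = 0`, with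
  `m • D = div g` for some `g ≡ 1` at `V₁` and at `V₂`  (the KUMMER DEFINITION of `W1`);
* `kummerOneUnits_le_torsion`, `smul_mem_kummerOneUnits` (stability under inertia);
* `sub_mem_kummerOneUnits` : **(a) with `c = 1`**: if `m • x = 0` then `γ • x - x` is a Kummer
  one-unit class.  Inputs: `m`-th roots in `K`, `A ⊆ V_i`, value group of `V_i` = value group of
  the constants, ONE function `e` with `e ≡ 0` at `V₁`, `e ≡ 1` at `V₂` (incomparability), `γ`
  preserves the valuation of `A` and acts trivially on the residue fields of `V₁`, `V₂`.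

No annuli, no component groups, no lifting: see findings #509 (R1).
-/
import Fermat.Prelude.Def_AlgebraicCurve_BaseChangeGalois

set_option autoImplicit false

noncomputable section

namespace Fermat.Agent.H20.ORD

open AlgebraicCurve

section OneUnits

variable {F : Type*} [Field F] (V : ValuationSubring F)

/-- `g ≡ 1` modulo the maximal ideal of `V`. -/
def IsOneUnit (g : F) : Prop := g - 1 ∈ V.nonunits

variable {V}

theorem isOneUnit_iff {g : F} : IsOneUnit V g ↔ V.valuation (g - 1) < 1 :=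
  ValuationSubring.mem_nonunits_iff V

theorem IsOneUnit.valuation_eq_one {g : F} (h : IsOneUnit V g) : V.valuation g = 1 := by
  have hg : g = 1 + (g - 1) := by ring
  rw [hg]
  exact Valuation.map_one_add_of_lt _ (isOneUnit_iff.mp h)

theorem IsOneUnit.ne_zero {g : F} (h : IsOneUnit V g) : g ≠ 0 := by
  intro h0
  have := h.valuation_eq_one
  rw [h0, map_zero] at this
  exact zero_ne_one this

theorem isOneUnit_one : IsOneUnit V (1 : F) := by
  rw [isOneUnit_iff, sub_self, map_zero]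
  exact zero_lt_one

theorem IsOneUnit.mul {g g' : F} (h : IsOneUnit V g) (h' : IsOneUnit V g') :
    IsOneUnit V (g * g') := by
  rw [isOneUnit_iff]
  have e : g * g' - 1 = (g - 1) * g' + (g' - 1) := by ring
  rw [e]
  refine Valuation.map_add_lt _ ?_ (isOneUnit_iff.mp h')
  rw [map_mul, h'.valuation_eq_one, mul_one]
  exact isOneUnit_iff.mp h

theorem IsOneUnit.inv {g : F} (h : IsOneUnit V g) : IsOneUnit V g⁻¹ := by
  rw [isOneUnit_iff]
  have hg := h.ne_zero
  have e : g⁻¹ - 1 = -((g - 1) * g⁻¹) := by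
    field_simp
    ring
  rw [e, Valuation.map_neg, map_mul, map_inv₀, h.valuation_eq_one, inv_one, mul_one]
  exact isOneUnit_iff.mp h

theorem IsOneUnit.div {g g' : F} (h : IsOneUnit V g) (h' : IsOneUnit V g') :
    IsOneUnit V (g / g') := by
  rw [div_eq_mul_inv]
  exact h.mul h'.inv

theorem IsOneUnit.pow {g : F} (h : IsOneUnit V g) (n : ℕ) : IsOneUnit V (g ^ n) := by
  induction n with
  | zero => rw [pow_zero]; exact isOneUnit_one
  | succ n ih => rw [pow_succ]; exact ih.mul h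

/-- `y` a unit of `V` and `y' - y ∈ 𝔪`: then `y' / y` is a one-unit. -/
theorem isOneUnit_div_of_sub_mem {y y' : F} (hy : V.valuation y = 1)
    (h : y' - y ∈ V.nonunits) : IsOneUnit V (y' / y) := by
  have hy0 : y ≠ 0 := by
    intro h0
    rw [h0, map_zero] at hy
    exact zero_ne_one hy
  rw [isOneUnit_iff]
  have e : y' / y - 1 = (y' - y) * y⁻¹ := by
    field_simp
  rw [e, map_mul, map_inv₀, hy, inv_one, mul_one]
  exact (ValuationSubring.mem_nonunits_iff V).mp h

end OneUnits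

section Kummer

variable (K : Type*) {F : Type*} [Field K] [Field F] [Algebra K F]

/-- **The Kummer definition of `W1`**: classes `[D]` of degree-zero divisors such that
`m • D = div g` for a function `g` which is `≡ 1` at both valuations `V₁`, `V₂`. -/
def kummerOneUnits (m : ℕ) (V₁ V₂ : ValuationSubring F) : AddSubgroup (Pic0 K F) where
  carrier := {x | ∃ (D : Divisor.degZero (K := K) (F := F)) (g : F),
    (∀ v : Place K F, v.ord g = (m : ℤ) * (D : Divisor K F) v) ∧
      IsOneUnit V₁ g ∧ IsOneUnit V₂ g ∧ Pic0.mk D = x}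
  zero_mem' := ⟨0, 1, fun v => by simp, isOneUnit_one, isOneUnit_one, rfl⟩
  add_mem' := by
    rintro x y ⟨D, g, hg, h1, h2, rfl⟩ ⟨D', g', hg', h1', h2', rfl⟩
    refine ⟨D + D', g * g', fun v => ?_, h1.mul h1', h2.mul h2', rfl⟩
    rw [v.ord_mul h1.ne_zero h1'.ne_zero, hg v, hg' v]
    simp only [AddSubgroup.coe_add, Finsupp.add_apply]
    ring
  neg_mem' := by
    rintro x ⟨D, g, hg, h1, h2, rfl⟩
    refine ⟨-D, g⁻¹, fun v => ?_, h1.inv, h2.inv, rfl⟩
    rw [v.ord_inv, hg v]
    simp only [AddSubgroup.coe_neg, Finsupp.neg_apply]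
    ring

variable {K}

theorem mem_kummerOneUnits {m : ℕ} {V₁ V₂ : ValuationSubring F} {x : Pic0 K F} :
    x ∈ kummerOneUnits K m V₁ V₂ ↔ ∃ (D : Divisor.degZero (K := K) (F := F)) (g : F),
      (∀ v : Place K F, v.ord g = (m : ℤ) * (D : Divisor K F) v) ∧
        IsOneUnit V₁ g ∧ IsOneUnit V₂ g ∧ Pic0.mk D = x :=
  Iff.rfl

/-- Kummer one-unit classes are `m`-torsion. -/
theorem kummerOneUnits_le_torsion (m : ℕ) (V₁ V₂ : ValuationSubring F) :
    kummerOneUnits K m V₁ V₂ ≤ Pic0.torsion K F m := by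
  rintro x ⟨D, g, hg, h1, -, rfl⟩
  rw [Pic0.mem_torsion]
  show ((m : ℤ) • (QuotientAddGroup.mk D : Pic0 K F)) = 0
  rw [← QuotientAddGroup.mk_zsmul, QuotientAddGroup.eq_zero_iff, AddSubgroup.mem_addSubgroupOf]
  refine ⟨g, h1.ne_zero, fun v => ?_⟩
  rw [hg v]
  simp

/-- Stability of the Kummer one-unit classes under a semilinear automorphism acting trivially on
the residue fields of `V₁`, `V₂`. -/
theorem smul_mem_kummerOneUnits {m : ℕ} {V₁ V₂ : ValuationSubring F} (γ : SemilinearAut K F)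
    (hγ₁ : ∀ y ∈ V₁, γ • y - y ∈ V₁.nonunits) (hγ₂ : ∀ y ∈ V₂, γ • y - y ∈ V₂.nonunits)
    {x : Pic0 K F} (hx : x ∈ kummerOneUnits K m V₁ V₂) :
    γ • x ∈ kummerOneUnits K m V₁ V₂ := by
  obtain ⟨D, g, hg, h1, h2, rfl⟩ := hx
  have key : ∀ (V : ValuationSubring F), (∀ y ∈ V, γ • y - y ∈ V.nonunits) →
      IsOneUnit V g → IsOneUnit V (γ • g) := by
    intro V hγ h
    rw [isOneUnit_iff]
    have hmem : g ∈ V := (ValuationSubring.valuation_le_one_iff V g).mp h.valuation_eq_one.le
    have e : γ • g - 1 = (γ • g - g) + (g - 1) := by ring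
    rw [e]
    exact Valuation.map_add_lt _ ((ValuationSubring.mem_nonunits_iff V).mp (hγ g hmem))
      (isOneUnit_iff.mp h)
  refine ⟨SemilinearAut.degZeroSMulHom γ D, γ • g, fun v => ?_, key V₁ hγ₁ h1, key V₂ hγ₂ h2,
    (SemilinearAut.pic0_smul_mk γ D).symm⟩
  rw [SemilinearAut.coe_degZeroSMulHom, SemilinearAut.divisor_smul_apply, ← hg (γ⁻¹ • v)]
  have h := SemilinearAut.ord_smul γ (γ⁻¹ • v) g
  rw [smul_inv_smul] at h
  exact h


/-! ### (a) for the Kummer classes -/

/-- Unit constants of `A` are units of `V`. -/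
theorem valuation_algebraMap_eq_one {A : ValuationSubring K} {V : ValuationSubring F}
    (hAV : ∀ a ∈ A, algebraMap K F a ∈ V) {b : K} (hb : A.valuation b = 1) :
    V.valuation (algebraMap K F b) = 1 := by
  have hb0 : b ≠ 0 := by
    intro h0
    rw [h0, map_zero] at hb
    exact zero_ne_one hb
  have h1 : b ∈ A := (ValuationSubring.valuation_le_one_iff A b).mp hb.le
  have h2 : b⁻¹ ∈ A := by
    apply (ValuationSubring.valuation_le_one_iff A b⁻¹).mp
    rw [map_inv₀, hb, inv_one]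
  have h3 : V.valuation (algebraMap K F b) ≤ 1 :=
    (ValuationSubring.valuation_le_one_iff V _).mpr (hAV b h1)
  have h4 : V.valuation (algebraMap K F b)⁻¹ ≤ 1 := by
    rw [← map_inv₀]
    exact (ValuationSubring.valuation_le_one_iff V _).mpr (hAV b⁻¹ h2)
  have hne : V.valuation (algebraMap K F b) ≠ 0 := by
    rw [Valuation.ne_zero_iff]
    exact (map_ne_zero (algebraMap K F)).mpr hb0
  rw [map_inv₀] at h4
  refine le_antisymm h3 ?_
  by_contra hlt
  rw [not_le] at hlt
  have h5 : (1 : V.ValueGroup) < (V.valuation (algebraMap K F b))⁻¹ :=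
    (one_lt_inv₀ (zero_lt_iff.mpr hne)).mpr hlt
  exact absurd h4 (not_le.mpr h5)

/-- Roots of unit constants are unit constants. -/
theorem valuation_eq_one_of_pow {A : ValuationSubring K} {m : ℕ} (hm : 0 < m) {b : K}
    (hb : A.valuation (b ^ m) = 1) : A.valuation b = 1 := by
  rw [map_pow] at hb
  rcases lt_trichotomy (A.valuation b) 1 with h | h | h
  · exact absurd hb (ne_of_lt (pow_lt_one₀ zero_le h hm.ne'))
  · exact h
  · exact absurd hb (ne_of_gt (one_lt_pow₀ h hm.ne'))

/-- Local form of the key computation: `γ f / f` is a unit CONSTANT times a one-unit of `V`. -/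
theorem exists_const_isOneUnit {A : ValuationSubring K} {V : ValuationSubring F}
    (hunr : ∀ f : F, f ≠ 0 → ∃ c : K, c ≠ 0 ∧ V.valuation (algebraMap K F c * f) = 1)
    (γ : SemilinearAut K F)
    (hγA : ∀ c : K, c ≠ 0 → A.valuation (SemilinearAut.baseAut γ c) = A.valuation c)
    (hγ : ∀ y ∈ V, γ • y - y ∈ V.nonunits) {f : F} (hf : f ≠ 0) :
    ∃ u : K, A.valuation u = 1 ∧ IsOneUnit V ((γ • f / f) / algebraMap K F u) := by
  obtain ⟨c, hc, hy⟩ := hunr f hf
  have hσc : SemilinearAut.baseAut γ c ≠ 0 := by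
    intro h0
    have := hγA c hc
    rw [h0, map_zero] at this
    exact (Valuation.ne_zero_iff _).mpr hc this.symm
  have hymem : algebraMap K F c * f ∈ V := (ValuationSubring.valuation_le_one_iff V _).mp hy.le
  have h1 := isOneUnit_div_of_sub_mem hy (hγ _ hymem)
  refine ⟨c / SemilinearAut.baseAut γ c, ?_, ?_⟩
  · rw [map_div₀, hγA c hc]
    exact div_self ((Valuation.ne_zero_iff _).mpr hc)
  · have hc' : algebraMap K F c ≠ 0 := (map_ne_zero (algebraMap K F)).mpr hc
    have hσc' : algebraMap K F (SemilinearAut.baseAut γ c) ≠ 0 :=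
      (map_ne_zero (algebraMap K F)).mpr hσc
    have e : (γ • f / f) / algebraMap K F (c / SemilinearAut.baseAut γ c) =
        γ • (algebraMap K F c * f) / (algebraMap K F c * f) := by
      rw [smul_mul', SemilinearAut.smul_algebraMap, map_div₀]
      field_simp
    rw [e]
    exact h1

/-- **(a) with `c = 1`, Kummer form.**  If `m • x = 0` and `γ` acts trivially on the residue
fields of the two valuation rings `V₁`, `V₂`, then `γ • x - x` is the class of a divisor `D'` with
`m • D' = div g`, `g ≡ 1` at `V₁` and at `V₂`. -/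
theorem sub_mem_kummerOneUnits [HasPrincipalDivisors K F] {m : ℕ} (hm : 0 < m)
    (hroot : ∀ u : K, ∃ b : K, b ^ m = u)
    (A : ValuationSubring K) {V₁ V₂ : ValuationSubring F}
    (hAV₁ : ∀ a ∈ A, algebraMap K F a ∈ V₁) (hAV₂ : ∀ a ∈ A, algebraMap K F a ∈ V₂)
    (hunr₁ : ∀ f : F, f ≠ 0 → ∃ c : K, c ≠ 0 ∧ V₁.valuation (algebraMap K F c * f) = 1)
    (hunr₂ : ∀ f : F, f ≠ 0 → ∃ c : K, c ≠ 0 ∧ V₂.valuation (algebraMap K F c * f) = 1)
    (he : ∃ e : F, e ∈ V₁.nonunits ∧ e - 1 ∈ V₂.nonunits)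
    (γ : SemilinearAut K F)
    (hγA : ∀ c : K, c ≠ 0 → A.valuation (SemilinearAut.baseAut γ c) = A.valuation c)
    (hγ₁ : ∀ y ∈ V₁, γ • y - y ∈ V₁.nonunits) (hγ₂ : ∀ y ∈ V₂, γ • y - y ∈ V₂.nonunits)
    {x : Pic0 K F} (hx : (m : ℤ) • x = 0) :
    γ • x - x ∈ kummerOneUnits K m V₁ V₂ := by
  obtain ⟨D, rfl⟩ := Pic0.mk_surjective x
  -- the Kummer generator `f` of `x`
  have hx' : ((m : ℤ) • (QuotientAddGroup.mk D : Pic0 K F)) = 0 := hx
  rw [← QuotientAddGroup.mk_zsmul, QuotientAddGroup.eq_zero_iff,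
    AddSubgroup.mem_addSubgroupOf] at hx'
  obtain ⟨f, hf, hD⟩ := hx'
  have hD' : ∀ v : Place K F, v.ord f = (m : ℤ) * (D : Divisor K F) v := by
    intro v
    rw [← hD v]
    simp
  have hγf : γ • f ≠ 0 := by simpa using hf
  -- the constants
  obtain ⟨u₁, hu₁, h1⟩ := exists_const_isOneUnit (A := A) hunr₁ γ hγA hγ₁ hf
  obtain ⟨u₂, hu₂, h2⟩ := exists_const_isOneUnit (A := A) hunr₂ γ hγA hγ₂ hf
  obtain ⟨b₁, hb₁⟩ := hroot u₁
  obtain ⟨b₂, hb₂⟩ := hroot u₂
  have hvb₁ : A.valuation b₁ = 1 := valuation_eq_one_of_pow hm (by rw [hb₁]; exact hu₁)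
  have hvb₂ : A.valuation b₂ = 1 := valuation_eq_one_of_pow hm (by rw [hb₂]; exact hu₂)
  have hVb₁ : V₁.valuation (algebraMap K F b₁) = 1 := valuation_algebraMap_eq_one hAV₁ hvb₁
  have hVb₂ : V₂.valuation (algebraMap K F b₂) = 1 := valuation_algebraMap_eq_one hAV₂ hvb₂
  have hdiff : b₂ - b₁ ∈ A := by
    apply (ValuationSubring.valuation_le_one_iff A _).mp
    exact (Valuation.map_sub_le (v := A.valuation) hvb₂.le hvb₁.le)
  -- the approximating function `U`
  obtain ⟨e, he₁, he₂⟩ := he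
  set U : F := algebraMap K F b₁ + algebraMap K F (b₂ - b₁) * e with hU
  have hU₁ : IsOneUnit V₁ (U / algebraMap K F b₁) := by
    apply isOneUnit_div_of_sub_mem hVb₁
    have e1 : U - algebraMap K F b₁ = algebraMap K F (b₂ - b₁) * e := by
      rw [hU]; ring
    rw [e1, ValuationSubring.mem_nonunits_iff, map_mul]
    have h3 : V₁.valuation (algebraMap K F (b₂ - b₁)) ≤ 1 :=
      (ValuationSubring.valuation_le_one_iff V₁ _).mpr (hAV₁ _ hdiff)
    have h4 : V₁.valuation e < 1 := (ValuationSubring.mem_nonunits_iff V₁).mp he₁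
    calc V₁.valuation (algebraMap K F (b₂ - b₁)) * V₁.valuation e
        ≤ 1 * V₁.valuation e := mul_le_mul' h3 le_rfl
      _ = V₁.valuation e := one_mul _
      _ < 1 := h4
  have hU₂ : IsOneUnit V₂ (U / algebraMap K F b₂) := by
    apply isOneUnit_div_of_sub_mem hVb₂
    have e1 : U - algebraMap K F b₂ = algebraMap K F (b₂ - b₁) * (e - 1) := by
      rw [hU, map_sub]; ring
    rw [e1, ValuationSubring.mem_nonunits_iff, map_mul]
    have h3 : V₂.valuation (algebraMap K F (b₂ - b₁)) ≤ 1 :=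
      (ValuationSubring.valuation_le_one_iff V₂ _).mpr (hAV₂ _ hdiff)
    have h4 : V₂.valuation (e - 1) < 1 := (ValuationSubring.mem_nonunits_iff V₂).mp he₂
    calc V₂.valuation (algebraMap K F (b₂ - b₁)) * V₂.valuation (e - 1)
        ≤ 1 * V₂.valuation (e - 1) := mul_le_mul' h3 le_rfl
      _ = V₂.valuation (e - 1) := one_mul _
      _ < 1 := h4
  have hb₁0 : algebraMap K F b₁ ≠ 0 := by
    intro h0
    rw [h0, map_zero] at hVb₁
    exact zero_ne_one hVb₁
  have hb₂0 : algebraMap K F b₂ ≠ 0 := by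
    intro h0
    rw [h0, map_zero] at hVb₂
    exact zero_ne_one hVb₂
  have hU0 : U ≠ 0 := by
    intro h0
    have := hU₁.ne_zero
    rw [h0, zero_div] at this
    exact this rfl
  have hu₁0 : algebraMap K F u₁ ≠ 0 := by
    rw [← hb₁, map_pow]
    exact pow_ne_zero _ hb₁0
  have hu₂0 : algebraMap K F u₂ ≠ 0 := by
    rw [← hb₂, map_pow]
    exact pow_ne_zero _ hb₂0
  -- the corrected Kummer generator `g`
  have hg₁ : IsOneUnit V₁ (γ • f / f / U ^ m) := by
    have e1 : γ • f / f / U ^ m =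
        (γ • f / f / algebraMap K F u₁) / (U / algebraMap K F b₁) ^ m := by
      rw [div_pow, ← map_pow, hb₁]
      field_simp
    rw [e1]
    exact h1.div (hU₁.pow m)
  have hg₂ : IsOneUnit V₂ (γ • f / f / U ^ m) := by
    have e1 : γ • f / f / U ^ m =
        (γ • f / f / algebraMap K F u₂) / (U / algebraMap K F b₂) ^ m := by
      rw [div_pow, ← map_pow, hb₂]
      field_simp
    rw [e1]
    exact h2.div (hU₂.pow m)
  -- the divisor
  obtain ⟨DU, hDU, hdeg⟩ := HasPrincipalDivisors.exists_divisor (K := K) U hU0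
  have hDUp : (⟨DU, hdeg⟩ : Divisor.degZero (K := K) (F := F)) ∈
      (Divisor.principal (K := K) (F := F)).addSubgroupOf (Divisor.degZero (K := K) (F := F)) := by
    rw [AddSubgroup.mem_addSubgroupOf]
    exact ⟨U, hU0, hDU⟩
  refine ⟨SemilinearAut.degZeroSMulHom γ D - D - ⟨DU, hdeg⟩, γ • f / f / U ^ m, fun v => ?_,
    hg₁, hg₂, ?_⟩
  · have hord : v.ord (γ • f) = (m : ℤ) * (D : Divisor K F) (γ⁻¹ • v) := by
      rw [← hD' (γ⁻¹ • v)]
      have h := SemilinearAut.ord_smul γ (γ⁻¹ • v) f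
      rw [smul_inv_smul] at h
      exact h
    rw [div_eq_mul_inv, div_eq_mul_inv,
      v.ord_mul (mul_ne_zero hγf (inv_ne_zero hf)) (inv_ne_zero (pow_ne_zero _ hU0)),
      v.ord_mul hγf (inv_ne_zero hf), v.ord_inv, v.ord_inv, hord, hD' v,
      ← zpow_natCast U m, v.ord_zpow, ← hDU v]
    simp only [AddSubgroup.coe_sub, SemilinearAut.coe_degZeroSMulHom, Finsupp.sub_apply,
      SemilinearAut.divisor_smul_apply]
    ring
  · show (QuotientAddGroup.mk (SemilinearAut.degZeroSMulHom γ D - D - ⟨DU, hdeg⟩) : Pic0 K F) =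
      γ • Pic0.mk D - Pic0.mk D
    rw [QuotientAddGroup.mk_sub, QuotientAddGroup.mk_sub,
      (QuotientAddGroup.eq_zero_iff _).mpr hDUp, sub_zero, SemilinearAut.pic0_smul_mk]
    rfl

end Kummer

end Fermat.Agent.H20.ORD
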