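/-
helper20 (P-ORD, owner of (a)): THE KUMMER FORM OF (a) AGAINST THE ABSTRACT NODAL INTERFACE
`Fermat.Agent.H18.ORD.NodalDefs` (helper18).

* `exists_sep_of_not_le` : weak approximation for two incomparable valuation rings (one function
  `e ≡ 0` at `V₁`, `e ≡ 1` at `V₂`);
* `nodalVoo H`, `nodalV0 H` : the Gauss rings `G.Voo`, `G.V0` of a nodal reduction as
  `ValuationSubring`s, with `mem_nonunits_nodalVoo_iff` (`𝔪 = ker red`);
* `kummer_gen_nodal` : **(a), Kummer form, `c = 1`**: for `σ ∈ I_A` and `p ^ n • x = 0` the class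
  `σ • x - x` is the class of a degree-zero divisor `D'` with `p ^ n • D' = div gk`,
  `red_∞ gk = 1`, `red_0 gk = 1`.  This is EXACTLY the input `(D', gk, hdiv, h1, h2)` of the MOVE
  lemma (helper94), so `(a')  =  move ∘ kummer_gen_nodal`.
-/
import Fermat.Agent.H20.ORD.KummerA
import Fermat.Agent.H18.ORD.NodalDefs
import Fermat.Agent.H58.RR.Modular
import Fermat.Agent.H64.DecompVal
import Fermat.Agent.H8.InertiaBasic

set_option autoImplicit false
set_option linter.style.haveILetI false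
set_option linter.unusedSectionVars false

noncomputable section

namespace Fermat.Agent.H20.ORD

open AlgebraicCurve ModularCurve
open Fermat.Agent.H10.FF Fermat.Agent.H72.FF Fermat.Agent.H18.ORD

section Sep

variable {F : Type*} [Field F]

/-- **Weak approximation for two incomparable valuation rings.** -/
theorem exists_sep_of_not_le (V₁ V₂ : ValuationSubring F) (h12 : ¬ V₁ ≤ V₂) (h21 : ¬ V₂ ≤ V₁) :
    ∃ e : F, e ∈ V₁.nonunits ∧ e - 1 ∈ V₂.nonunits := by
  obtain ⟨a, ha1, ha2⟩ := SetLike.not_le_iff_exists.1 h12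
  obtain ⟨b, hb2, hb1⟩ := SetLike.not_le_iff_exists.1 h21
  have hb0 : b ≠ 0 := fun h0 => hb1 (h0 ▸ V₁.zero_mem)
  have ha0 : a ≠ 0 := fun h0 => ha2 (h0 ▸ V₂.zero_mem)
  have va1 : V₁.valuation a ≤ 1 := (V₁.valuation_le_one_iff a).mpr ha1
  have vb1 : 1 < V₁.valuation b := by
    rw [← not_le, V₁.valuation_le_one_iff]
    exact hb1
  have vb2 : V₂.valuation b ≤ 1 := (V₂.valuation_le_one_iff b).mpr hb2
  have va2 : 1 < V₂.valuation a := by
    rw [← not_le, V₂.valuation_le_one_iff]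
    exact ha2
  -- `t = a / b` is small at `V₁` and large at `V₂`
  have ht1 : V₁.valuation (a / b) < 1 := by
    rw [map_div₀]
    have hbpos : 0 < V₁.valuation b := lt_trans zero_lt_one vb1
    rw [div_lt_one₀ hbpos]
    exact lt_of_le_of_lt va1 vb1
  have ht2 : 1 < V₂.valuation (a / b) := by
    rw [map_div₀]
    have hbpos : 0 < V₂.valuation b := zero_lt_iff.mpr ((Valuation.ne_zero_iff _).mpr hb0)
    rw [one_lt_div₀ hbpos]
    exact lt_of_le_of_lt vb2 va2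
  set t : F := a / b with ht
  have h1t : V₁.valuation (1 + t) = 1 := Valuation.map_one_add_of_lt _ ht1
  have h2t : V₂.valuation (1 + t) = V₂.valuation t := by
    rw [add_comm]
    exact Valuation.map_add_eq_of_lt_left _ (by rw [map_one]; exact ht2)
  have hne : (1 : F) + t ≠ 0 := by
    intro h0
    rw [h0, map_zero] at h1t
    exact zero_ne_one h1t
  refine ⟨t / (1 + t), ?_, ?_⟩
  · rw [V₁.mem_nonunits_iff, map_div₀, h1t, div_one]
    exact ht1
  · have e1 : t / (1 + t) - 1 = -(1 + t)⁻¹ := by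
      field_simp
      ring
    rw [e1, V₂.mem_nonunits_iff, Valuation.map_neg, map_inv₀, h2t]
    exact inv_lt_one_of_one_lt₀ ht2

end Sep

section Nodal

variable {N : ℕ} {A : ValuationSubring Qb} {Foo F0 : Type} [Field Foo] [Field F0]
  [Algebra (kRes A) Foo] [Algebra (kRes A) F0] {ι : Type} {p : ℕ} {G : NodalData N A Foo F0 ι}

theorem nodal_mem_or_inv_mem_oo (H : NodalRvHyp p G) (x : FLb N) : x ∈ G.Voo ∨ x⁻¹ ∈ G.Voo := by
  rcases eq_or_ne x 0 with rfl | hx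
  · exact Or.inl G.Voo.zero_mem
  obtain ⟨c, u, hc, hu, rfl⟩ := H.norm_oo x hx
  rcases A.mem_or_inv_mem c with h | h
  · exact Or.inl (G.Voo.mul_mem ((H.const_oo c).mpr h) u.2)
  · right
    rw [mul_inv, ← map_inv₀]
    exact G.Voo.mul_mem ((H.const_oo c⁻¹).mpr h) (H.inv_oo u hu)

theorem nodal_mem_or_inv_mem_zero (H : NodalRvHyp p G) (x : FLb N) :
    x ∈ G.V0 ∨ x⁻¹ ∈ G.V0 := by
  rcases eq_or_ne x 0 with rfl | hx
  · exact Or.inl G.V0.zero_mem
  obtain ⟨c, u, hc, hu, rfl⟩ := H.norm_zero x hx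
  rcases A.mem_or_inv_mem c with h | h
  · exact Or.inl (G.V0.mul_mem ((H.const_zero c).mpr h) u.2)
  · right
    rw [mul_inv, ← map_inv₀]
    exact G.V0.mul_mem ((H.const_zero c⁻¹).mpr h) (H.inv_zero u hu)

/-- `V_∞` of a nodal reduction as a valuation subring. -/
def nodalVoo (H : NodalRvHyp p G) : ValuationSubring (FLb N) :=
  { G.Voo with mem_or_inv_mem' := nodal_mem_or_inv_mem_oo H }

/-- `V_0` of a nodal reduction as a valuation subring. -/
def nodalV0 (H : NodalRvHyp p G) : ValuationSubring (FLb N) :=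
  { G.V0 with mem_or_inv_mem' := nodal_mem_or_inv_mem_zero H }

theorem mem_nodalVoo (H : NodalRvHyp p G) {x : FLb N} : x ∈ nodalVoo H ↔ x ∈ G.Voo := Iff.rfl

theorem mem_nodalV0 (H : NodalRvHyp p G) {x : FLb N} : x ∈ nodalV0 H ↔ x ∈ G.V0 := Iff.rfl

/-- The maximal ideal of `V_∞` is the kernel of the reduction. -/
theorem mem_nonunits_nodalVoo_iff (H : NodalRvHyp p G) {x : FLb N} :
    x ∈ (nodalVoo H).nonunits ↔ ∃ h : x ∈ G.Voo, G.redOo ⟨x, h⟩ = 0 := by
  rw [ValuationSubring.mem_nonunits_iff_or]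
  constructor
  · rintro (rfl | hx)
    · exact ⟨G.Voo.zero_mem, map_zero G.redOo⟩
    · have hmem : x ∈ G.Voo := by
        rcases nodal_mem_or_inv_mem_oo H x with h | h
        · exact h
        · exact absurd ((mem_nodalVoo H).mpr h) hx
      refine ⟨hmem, ?_⟩
      by_contra hne
      exact hx ((mem_nodalVoo H).mpr (H.inv_oo ⟨x, hmem⟩ hne))
  · rintro ⟨h, hred⟩
    by_cases hx : x = 0
    · exact Or.inl hx
    · right
      intro hinv
      have hinv' : x⁻¹ ∈ G.Voo := (mem_nodalVoo H).mp hinv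
      have h1 : (⟨x, h⟩ : G.Voo) * ⟨x⁻¹, hinv'⟩ = 1 := Subtype.ext (mul_inv_cancel₀ hx)
      have h2 := congrArg G.redOo h1
      rw [map_mul, hred, zero_mul, map_one] at h2
      exact zero_ne_one h2

/-- The maximal ideal of `V_0` is the kernel of the reduction. -/
theorem mem_nonunits_nodalV0_iff (H : NodalRvHyp p G) {x : FLb N} :
    x ∈ (nodalV0 H).nonunits ↔ ∃ h : x ∈ G.V0, G.red0 ⟨x, h⟩ = 0 := by
  rw [ValuationSubring.mem_nonunits_iff_or]
  constructor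
  · rintro (rfl | hx)
    · exact ⟨G.V0.zero_mem, map_zero G.red0⟩
    · have hmem : x ∈ G.V0 := by
        rcases nodal_mem_or_inv_mem_zero H x with h | h
        · exact h
        · exact absurd ((mem_nodalV0 H).mpr h) hx
      refine ⟨hmem, ?_⟩
      by_contra hne
      exact hx ((mem_nodalV0 H).mpr (H.inv_zero ⟨x, hmem⟩ hne))
  · rintro ⟨h, hred⟩
    by_cases hx : x = 0
    · exact Or.inl hx
    · right
      intro hinv
      have hinv' : x⁻¹ ∈ G.V0 := (mem_nodalV0 H).mp hinv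
      have h1 : (⟨x, h⟩ : G.V0) * ⟨x⁻¹, hinv'⟩ = 1 := Subtype.ext (mul_inv_cancel₀ hx)
      have h2 := congrArg G.red0 h1
      rw [map_mul, hred, zero_mul, map_one] at h2
      exact zero_ne_one h2

/-- One-units of `V_∞` are the elements with reduction `1`. -/
theorem isOneUnit_nodalVoo_iff (H : NodalRvHyp p G) {x : FLb N} :
    IsOneUnit (nodalVoo H) x ↔ ∃ h : x ∈ G.Voo, G.redOo ⟨x, h⟩ = 1 := by
  unfold IsOneUnit
  rw [mem_nonunits_nodalVoo_iff]
  constructor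
  · rintro ⟨h, hred⟩
    have hx : x ∈ G.Voo := by
      have := G.Voo.add_mem h G.Voo.one_mem
      rwa [sub_add_cancel] at this
    refine ⟨hx, ?_⟩
    have e : (⟨x, hx⟩ : G.Voo) = ⟨x - 1, h⟩ + 1 := Subtype.ext (by simp)
    rw [e, map_add, hred, map_one, zero_add]
  · rintro ⟨h, hred⟩
    have hx : x - 1 ∈ G.Voo := G.Voo.sub_mem h G.Voo.one_mem
    refine ⟨hx, ?_⟩
    have e : (⟨x - 1, hx⟩ : G.Voo) = ⟨x, h⟩ - 1 := Subtype.ext (by simp)
    rw [e, map_sub, hred, map_one, sub_self]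

/-- One-units of `V_0` are the elements with reduction `1`. -/
theorem isOneUnit_nodalV0_iff (H : NodalRvHyp p G) {x : FLb N} :
    IsOneUnit (nodalV0 H) x ↔ ∃ h : x ∈ G.V0, G.red0 ⟨x, h⟩ = 1 := by
  unfold IsOneUnit
  rw [mem_nonunits_nodalV0_iff]
  constructor
  · rintro ⟨h, hred⟩
    have hx : x ∈ G.V0 := by
      have := G.V0.add_mem h G.V0.one_mem
      rwa [sub_add_cancel] at this
    refine ⟨hx, ?_⟩
    have e : (⟨x, hx⟩ : G.V0) = ⟨x - 1, h⟩ + 1 := Subtype.ext (by simp)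
    rw [e, map_add, hred, map_one, zero_add]
  · rintro ⟨h, hred⟩
    have hx : x - 1 ∈ G.V0 := G.V0.sub_mem h G.V0.one_mem
    refine ⟨hx, ?_⟩
    have e : (⟨x - 1, hx⟩ : G.V0) = ⟨x, h⟩ - 1 := Subtype.ext (by simp)
    rw [e, map_sub, hred, map_one, sub_self]

/-- The two Gauss rings are incomparable. -/
theorem nodal_not_le_oo_zero (H : NodalRvHyp p G) : ¬ nodalVoo H ≤ nodalV0 H := by
  intro hle
  apply H.ne
  refine le_antisymm (fun x hx => hle hx) ?_
  intro φ hφ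
  rcases eq_or_ne φ 0 with rfl | h0
  · exact G.Voo.zero_mem
  obtain ⟨c, u, hc, hu, rfl⟩ := H.norm_oo φ h0
  have hu0 : (u : FLb N) ≠ 0 := by
    intro h
    apply hu
    have : u = 0 := Subtype.ext h
    rw [this, map_zero]
  have h1 : (u : FLb N)⁻¹ ∈ G.V0 := hle (H.inv_oo u hu)
  have h2 : algebraMap Qb (FLb N) c ∈ G.V0 := by
    have := G.V0.mul_mem hφ h1
    rwa [mul_assoc, mul_inv_cancel₀ hu0, mul_one] at this
  exact G.Voo.mul_mem ((H.const_oo c).mpr ((H.const_zero c).mp h2)) u.2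

theorem nodal_not_le_zero_oo (H : NodalRvHyp p G) : ¬ nodalV0 H ≤ nodalVoo H := by
  intro hle
  apply H.ne
  refine le_antisymm ?_ (fun x hx => hle hx)
  intro φ hφ
  rcases eq_or_ne φ 0 with rfl | h0
  · exact G.V0.zero_mem
  obtain ⟨c, u, hc, hu, rfl⟩ := H.norm_zero φ h0
  have hu0 : (u : FLb N) ≠ 0 := by
    intro h
    apply hu
    have : u = 0 := Subtype.ext h
    rw [this, map_zero]
  have h1 : (u : FLb N)⁻¹ ∈ G.Voo := hle (H.inv_zero u hu)
  have h2 : algebraMap Qb (FLb N) c ∈ G.Voo := by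
    have := G.Voo.mul_mem hφ h1
    rwa [mul_assoc, mul_inv_cancel₀ hu0, mul_one] at this
  exact G.V0.mul_mem ((H.const_zero c).mpr ((H.const_oo c).mp h2)) u.2

/-- (C2) at `V_∞`. -/
theorem nodal_exists_const_unit_oo (H : NodalRvHyp p G) {f : FLb N} (hf : f ≠ 0) :
    ∃ c : Qb, c ≠ 0 ∧ (nodalVoo H).valuation (algebraMap Qb (FLb N) c * f) = 1 := by
  obtain ⟨c, u, hc, hu, rfl⟩ := H.norm_oo f hf
  refine ⟨c⁻¹, inv_ne_zero hc, ?_⟩
  have hcF : algebraMap Qb (FLb N) c ≠ 0 := (map_ne_zero _).mpr hc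
  rw [map_inv₀, ← mul_assoc, inv_mul_cancel₀ hcF, one_mul]
  have h1 : (nodalVoo H).valuation (u : FLb N) ≤ 1 :=
    ((nodalVoo H).valuation_le_one_iff _).mpr u.2
  have h2 : (nodalVoo H).valuation (u : FLb N)⁻¹ ≤ 1 :=
    ((nodalVoo H).valuation_le_one_iff _).mpr (H.inv_oo u hu)
  have hu0 : (u : FLb N) ≠ 0 := by
    intro h
    apply hu
    have : u = 0 := Subtype.ext h
    rw [this, map_zero]
  have hne : (nodalVoo H).valuation (u : FLb N) ≠ 0 := (Valuation.ne_zero_iff _).mpr hu0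
  rw [map_inv₀] at h2
  refine le_antisymm h1 ?_
  by_contra hlt
  rw [not_le] at hlt
  exact absurd h2 (not_le.mpr ((one_lt_inv₀ (zero_lt_iff.mpr hne)).mpr hlt))

/-- (C2) at `V_0`. -/
theorem nodal_exists_const_unit_zero (H : NodalRvHyp p G) {f : FLb N} (hf : f ≠ 0) :
    ∃ c : Qb, c ≠ 0 ∧ (nodalV0 H).valuation (algebraMap Qb (FLb N) c * f) = 1 := by
  obtain ⟨c, u, hc, hu, rfl⟩ := H.norm_zero f hf
  refine ⟨c⁻¹, inv_ne_zero hc, ?_⟩
  have hcF : algebraMap Qb (FLb N) c ≠ 0 := (map_ne_zero _).mpr hc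
  rw [map_inv₀, ← mul_assoc, inv_mul_cancel₀ hcF, one_mul]
  have h1 : (nodalV0 H).valuation (u : FLb N) ≤ 1 :=
    ((nodalV0 H).valuation_le_one_iff _).mpr u.2
  have h2 : (nodalV0 H).valuation (u : FLb N)⁻¹ ≤ 1 :=
    ((nodalV0 H).valuation_le_one_iff _).mpr (H.inv_zero u hu)
  have hu0 : (u : FLb N) ≠ 0 := by
    intro h
    apply hu
    have : u = 0 := Subtype.ext h
    rw [this, map_zero]
  have hne : (nodalV0 H).valuation (u : FLb N) ≠ 0 := (Valuation.ne_zero_iff _).mpr hu0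
  rw [map_inv₀] at h2
  refine le_antisymm h1 ?_
  by_contra hlt
  rw [not_le] at hlt
  exact absurd h2 (not_le.mpr ((one_lt_inv₀ (zero_lt_iff.mpr hne)).mpr hlt))

/-- (C4) at `V_∞`. -/
theorem nodal_inertia_oo (H : NodalRvHyp p G) (HG : NodalGalHyp G) {σ : GQ}
    (hσ : σ ∈ A.inertiaSubgroupIn ℚ) {y : FLb N} (hy : y ∈ nodalVoo H) :
    galF N σ • y - y ∈ (nodalVoo H).nonunits := by
  have hy' : y ∈ G.Voo := hy
  have hσD : σ ∈ A.decompositionSubgroup ℚ :=
    Fermat.Agent.H8.mem_decomposition_of_mem_inertiaSubgroupIn A hσ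
  have h1 : galF N σ • y ∈ G.Voo := HG.dec_oo σ hσD y hy'
  have h2 := HG.inertia_oo σ hσ ⟨y, hy'⟩ h1
  rw [mem_nonunits_nodalVoo_iff]
  refine ⟨G.Voo.sub_mem h1 hy', ?_⟩
  have e : (⟨galF N σ • y - y, G.Voo.sub_mem h1 hy'⟩ : G.Voo) =
      ⟨galF N σ • y, h1⟩ - ⟨y, hy'⟩ := rfl
  rw [e, map_sub, h2, sub_self]

/-- (C4) at `V_0`. -/
theorem nodal_inertia_zero (H : NodalRvHyp p G) (HG : NodalGalHyp G) {σ : GQ}
    (hσ : σ ∈ A.inertiaSubgroupIn ℚ) {y : FLb N} (hy : y ∈ nodalV0 H) :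
    galF N σ • y - y ∈ (nodalV0 H).nonunits := by
  have hy' : y ∈ G.V0 := hy
  have hσD : σ ∈ A.decompositionSubgroup ℚ :=
    Fermat.Agent.H8.mem_decomposition_of_mem_inertiaSubgroupIn A hσ
  have h1 : galF N σ • y ∈ G.V0 := HG.dec_zero σ hσD y hy'
  have h2 := HG.inertia_zero σ hσ ⟨y, hy'⟩ h1
  rw [mem_nonunits_nodalV0_iff]
  refine ⟨G.V0.sub_mem h1 hy', ?_⟩
  have e : (⟨galF N σ • y - y, G.V0.sub_mem h1 hy'⟩ : G.V0) =
      ⟨galF N σ • y, h1⟩ - ⟨y, hy'⟩ := rfl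
  rw [e, map_sub, h2, sub_self]

/-- (C5). -/
theorem nodal_inertia_valuation_eq {σ : GQ} (hσ : σ ∈ A.inertiaSubgroupIn ℚ) (c : Qb) :
    A.valuation (SemilinearAut.baseAut (galF N σ) c) = A.valuation c :=
  haveI : Algebra.IsAlgebraic ℚ Qb := AlgebraicClosure.isAlgebraic ℚ
  Fermat.Agent.H64.valuation_apply_eq_of_stable A σ
    (fun _ => Fermat.Agent.H8.apply_mem_iff_of_mem_decomposition A
      (Fermat.Agent.H8.mem_decomposition_of_mem_inertiaSubgroupIn A hσ)) c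

/-- **(a), Kummer form, against the nodal interface.**  For `σ ∈ I_A` and `p ^ n • x = 0`, the
class `σ • x - x` is represented by a degree-zero divisor `D'` with `p ^ n • D' = div gk`,
`red_∞ gk = 1` and `red_0 gk = 1`. -/
theorem kummer_gen_nodal [NeZero N] (H : NodalRvHyp p G) (HG : NodalGalHyp G) (hp : 0 < p)
    (n : ℕ) {σ : GQ} (hσ : σ ∈ A.inertiaSubgroupIn ℚ) {x : JZero N} (hx : p ^ n • x = 0) :
    ∃ (D' : Divisor.degZero (K := Qb) (F := FLb N)) (gk : FLb N),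
      (∀ v : Place Qb (FLb N), v.ord gk = ((p ^ n : ℕ) : ℤ) * (D' : Divisor Qb (FLb N)) v) ∧
      (∃ h : gk ∈ G.Voo, G.redOo ⟨gk, h⟩ = 1) ∧ (∃ h : gk ∈ G.V0, G.red0 ⟨gk, h⟩ = 1) ∧
      Pic0.mk D' = σ • x - x := by
  haveI := Fermat.Agent.H58.hasPrincipalDivisors_modularFunctionFieldBar N
  have hx' : ((p ^ n : ℕ) : ℤ) • x = 0 := by
    rw [natCast_zsmul]
    exact hx
  have key := sub_mem_kummerOneUnits (K := Qb) (F := FLb N) (pow_pos hp n)
    (fun u => IsAlgClosed.exists_pow_nat_eq u (pow_pos hp n)) A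
    (V₁ := nodalVoo H) (V₂ := nodalV0 H)
    (fun a ha => (H.const_oo a).mpr ha) (fun a ha => (H.const_zero a).mpr ha)
    (fun _ hf => nodal_exists_const_unit_oo H hf) (fun _ hf => nodal_exists_const_unit_zero H hf)
    (exists_sep_of_not_le _ _ (nodal_not_le_oo_zero H) (nodal_not_le_zero_oo H))
    (galF N σ) (fun c _ => nodal_inertia_valuation_eq hσ c)
    (fun _ hy => nodal_inertia_oo H HG hσ hy) (fun _ hy => nodal_inertia_zero H HG hσ hy) hx'
  obtain ⟨D', gk, hdiv, h1, h2, hmk⟩ := key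
  exact ⟨D', gk, hdiv, (isOneUnit_nodalVoo_iff H).mp h1, (isOneUnit_nodalV0_iff H).mp h2, hmk⟩

end Nodal

end Fermat.Agent.H20.ORD
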