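/-
helper20 (P-ORD, row 1134 ORD-GA-KUM): **MOVE + Kummer wiring = (a') with `c = 1`**.

`nodalKummer : Fermat.Agent.H92.ORD.NodalKummerStatement` :
for a nodal Jacobi system `(O, t)`, `σ ∈ I_A` and `p ^ n • x = 0`, the class `σ • x - x` is
`[∑ (P i - O i)]` with `P i` in the residue disc of `O i`.

Proof (findings #517 (3), #519):
* Kummer: `σ • x - x = [D']`, `p ^ n • D' = div gk`, `gk ≡ 1` at both Gauss valuations
  (`kummer_gen_nodal_of_principal`, from `Fermat.Agent.H20.ORD.sub_mem_kummerOneUnits`);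
* Riemann on the generic fibre: `f ≠ 0` in `L(D' + ∑ O i)`, `E := div f + D' + ∑ O i ≥ 0`;
* `φ := f ^ (p ^ n) * gk` has `div φ = p ^ n • (E - ∑ O i)` : BAL (`H18.ORD.NodalRvHyp.bal`) gives
  `r_* E = r_* (∑ O i)` and no point of `E` over a node;
* combinatorics (`H94.ORD.ordMove_exists_points`) : `E = ∑ P i`, `r (P i) = r (O i)`.
-/
import Fermat.Agent.H20.ORD.KummerNodal
import Fermat.Agent.H92.ORD.NodalJacDefs
import Fermat.Agent.H94.ORD.MoveComb
import Fermat.Agent.H56.FF.JacGeneric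

set_option autoImplicit false
set_option linter.style.haveILetI false
set_option linter.unusedSectionVars false
set_option maxHeartbeats 800000

noncomputable section

namespace Fermat.Agent.H20.ORD

open AlgebraicCurve ModularCurve
open Fermat.Agent.H10.FF Fermat.Agent.H72.FF Fermat.Agent.H18.ORD Fermat.Agent.H92.ORD
open Fermat.Agent.H27.ESD

variable {N : ℕ} {A : ValuationSubring Qb} {Foo F0 : Type} [Field Foo] [Field F0]
  [Algebra (kRes A) Foo] [Algebra (kRes A) F0] {ι : Type} {p : ℕ} {G : NodalData N A Foo F0 ι}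

/-- `kummer_gen_nodal` with the principal divisors as a hypothesis (no `NeZero N`). -/
theorem kummer_gen_nodal_of_principal (hprin : HasPrincipalDivisors Qb (FLb N))
    (H : NodalRvHyp p G) (HG : NodalGalHyp G) (hp : 0 < p)
    (n : ℕ) {σ : GQ} (hσ : σ ∈ A.inertiaSubgroupIn ℚ) {x : JZero N} (hx : p ^ n • x = 0) :
    ∃ (D' : Divisor.degZero (K := Qb) (F := FLb N)) (gk : FLb N),
      (∀ v : Place Qb (FLb N), v.ord gk = ((p ^ n : ℕ) : ℤ) * (D' : Divisor Qb (FLb N)) v) ∧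
      (∃ h : gk ∈ G.Voo, G.redOo ⟨gk, h⟩ = 1) ∧ (∃ h : gk ∈ G.V0, G.red0 ⟨gk, h⟩ = 1) ∧
      Pic0.mk D' = σ • x - x := by
  haveI := hprin
  have hx' : ((p ^ n : ℕ) : ℤ) • x = 0 := by
    rw [natCast_zsmul]
    exact hx
  have key := sub_mem_kummerOneUnits (K := Qb) (F := FLb N) (pow_pos hp n)
    (fun u => IsAlgClosed.exists_pow_nat_eq u (pow_pos hp n)) A
    (V₁ := nodalVoo H) (V₂ := nodalV0 H)
    (fun a ha => (H.const_oo a).mpr ha) (fun a ha => (H.const_zero a).mpr ha)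
    (fun _ hf => nodal_exists_const_unit_oo H hf) (fun _ hf => nodal_exists_const_unit_zero H hf)
    (exists_sep_of_not_le _ _ (nodal_not_le_oo_zero H) (nodal_not_le_zero_oo H))
    (galF N σ) (fun c _ => nodal_inertia_valuation_eq hσ c)
    (fun _ hy => nodal_inertia_oo H HG hσ hy) (fun _ hy => nodal_inertia_zero H HG hσ hy) hx'
  obtain ⟨D', gk, hdiv, h1, h2, hmk⟩ := key
  exact ⟨D', gk, hdiv, (isOneUnit_nodalVoo_iff H).mp h1, (isOneUnit_nodalV0_iff H).mp h2, hmk⟩

/-- the push-forward of the base points on `C_∞` -/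
theorem mapDomain_base_oo (G : NodalData N A Foo F0 ι) {g : ℕ} (O : Fin g → Place Qb (FLb N))
    (Q : Place (kRes A) Foo) :
    Finsupp.mapDomain G.r (∑ i, Finsupp.single (O i) (1 : ℤ)) (NPt.oo Q) = baseOo G O Q := by
  classical
  rw [Fermat.Agent.H56.FF.mapDomain_sum_single, Finsupp.finsetSum_apply]
  unfold baseOo
  rw [Finsupp.finsetSum_apply]
  refine Finset.sum_congr rfl fun i _ => ?_
  rcases h : G.r (O i) with Q' | Q' | ν
  · simp only [Finsupp.single_apply, NPt.oo.injEq]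
  · simp only [Finsupp.single_apply, Finsupp.zero_apply, reduceCtorEq, if_false]
  · simp only [Finsupp.single_apply, Finsupp.zero_apply, reduceCtorEq, if_false]

/-- the push-forward of the base points on `C_0` -/
theorem mapDomain_base_zero (G : NodalData N A Foo F0 ι) {g : ℕ} (O : Fin g → Place Qb (FLb N))
    (Q : Place (kRes A) F0) :
    Finsupp.mapDomain G.r (∑ i, Finsupp.single (O i) (1 : ℤ)) (NPt.zero Q) = baseZero G O Q := by
  classical
  rw [Fermat.Agent.H56.FF.mapDomain_sum_single, Finsupp.finsetSum_apply]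
  unfold baseZero
  rw [Finsupp.finsetSum_apply]
  refine Finset.sum_congr rfl fun i _ => ?_
  rcases h : G.r (O i) with Q' | Q' | ν
  · simp only [Finsupp.single_apply, Finsupp.zero_apply, reduceCtorEq, if_false]
  · simp only [Finsupp.single_apply, NPt.zero.injEq]
  · simp only [Finsupp.single_apply, Finsupp.zero_apply, reduceCtorEq, if_false]

/-- **MOVE** : a Kummer one-unit class is `[∑ (P i - O i)]` with `P i` in the disc of `O i`. -/
theorem nodal_move {g : ℕ} (hp : p.Prime) (hA : A.LiesOverPrime p) (H : NodalRvHyp p G)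
    [Nonempty ι] (pkg : RiemannPackage Qb (FLb N) g)
    (O : Fin g → Place Qb (FLb N))
    (hinj : Function.Injective (fun i => G.r (O i)))
    (hbase : NodalBase G (baseOo G O) (baseZero G O))
    (hsm : ∀ i ν, G.r (O i) ≠ NPt.node ν)
    (n : ℕ) (D' : Divisor.degZero (K := Qb) (F := FLb N)) (gk : FLb N)
    (hdiv : ∀ v : Place Qb (FLb N), v.ord gk = ((p ^ n : ℕ) : ℤ) * (D' : Divisor Qb (FLb N)) v)
    (h1 : ∃ h : gk ∈ G.Voo, G.redOo ⟨gk, h⟩ = 1) (h2 : ∃ h : gk ∈ G.V0, G.red0 ⟨gk, h⟩ = 1) :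
    ∃ (P : Fin g → Place Qb (FLb N)) (Df : Divisor Qb (FLb N)),
      (∀ i, G.r (P i) = G.r (O i)) ∧ Df ∈ Divisor.principal (K := Qb) (F := FLb N) ∧
      Divisor.degree Df = 0 ∧
      (D' : Divisor Qb (FLb N)) + Df =
        ∑ i, (Finsupp.single (P i) (1 : ℤ) - Finsupp.single (O i) 1) := by
  classical
  have hprin := pkg.principal
  have hgk0 : gk ≠ 0 := by
    rintro rfl
    obtain ⟨h, hred⟩ := h1
    have : (⟨0, h⟩ : G.Voo) = 0 := rfl
    rw [this, map_zero] at hred
    exact zero_ne_one hred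
  -- Riemann
  obtain ⟨Ob, hOb⟩ : ∃ Ob : Divisor Qb (FLb N), Ob = ∑ i, Finsupp.single (O i) (1 : ℤ) :=
    ⟨_, rfl⟩
  have hdeg₀ : Divisor.degree ((D' : Divisor Qb (FLb N)) + Ob) = g := by
    rw [map_add, Divisor.mem_degZero.mp D'.2, zero_add, hOb,
      Fermat.Agent.H56.FF.degree_sum_single_fin pkg.deg_one]
  obtain ⟨f, hf0, hfmem⟩ :=
    Fermat.Agent.H56.FF.exists_ne_zero_mem_rrSpace pkg _ (le_of_eq hdeg₀.symm)
  obtain ⟨Df, hDf, hDfdeg⟩ := hprin.exists_divisor f hf0
  obtain ⟨E, hE⟩ : ∃ E : Divisor Qb (FLb N), E = (D' : Divisor Qb (FLb N)) + Ob + Df :=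
    ⟨_, rfl⟩
  have hEnn : ∀ v, 0 ≤ E v := by
    intro v
    rw [hE, Finsupp.add_apply, hDf v]
    rcases (mem_riemannRochSpace_iff.mp hfmem) v with h | h
    · exact absurd h hf0
    · omega
  -- base points are not over nodes
  have hObnode : ∀ P ν, G.r P = NPt.node ν → Ob P = 0 := by
    intro P ν hP
    rw [hOb, Finsupp.finsetSum_apply]
    refine Finset.sum_eq_zero fun i _ => ?_
    rw [Finsupp.single_apply, if_neg]
    intro hi
    exact hsm i ν (hi ▸ hP)
  -- the divisor of `φ = f ^ (p ^ n) * gk`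
  have hmpos : (0 : ℤ) < ((p ^ n : ℕ) : ℤ) := by exact_mod_cast pow_pos hp.pos n
  obtain ⟨D, hDdef⟩ : ∃ D : Divisor Qb (FLb N), D = ((p ^ n : ℕ) : ℤ) • (E - Ob) := ⟨_, rfl⟩
  have hDapp : ∀ P, D P = ((p ^ n : ℕ) : ℤ) * (E P - Ob P) := by
    intro P
    rw [hDdef, Finsupp.smul_apply, Finsupp.sub_apply, smul_eq_mul]
  have hD : ∀ P, D P = P.ord (f ^ (p ^ n) * gk) := by
    intro P
    rw [P.ord_mul (pow_ne_zero _ hf0) hgk0, nb_ord_pow, hdiv P, ← hDf P, hDapp, hE]
    simp only [Finsupp.add_apply]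
    ring
  have hmapD : ∀ y, Finsupp.mapDomain G.r D y =
      ((p ^ n : ℕ) : ℤ) * (Finsupp.mapDomain G.r E y - Finsupp.mapDomain G.r Ob y) := by
    intro y
    rw [hDdef, Finsupp.mapDomain_smul, Finsupp.smul_apply, Finsupp.mapDomain_sub,
      Finsupp.sub_apply, smul_eq_mul]
  have hnode : ∀ P ν, G.r P = NPt.node ν → 0 ≤ D P := by
    intro P ν hP
    rw [hDapp, hObnode P ν hP, sub_zero]
    exact mul_nonneg hmpos.le (hEnn P)
  have hoo : ∀ Q : Place (kRes A) Foo, Q ∉ Set.range G.nOo →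
      -(((p ^ n : ℕ) : ℤ) * baseOo G O Q) ≤ Finsupp.mapDomain G.r D (NPt.oo Q) := by
    intro Q _
    rw [hmapD, hOb, mapDomain_base_oo]
    have := Fermat.Agent.H94.ORD.ordMove_mapDomain_nonneg G.r E hEnn (NPt.oo Q)
    nlinarith
  have h0 : ∀ Q : Place (kRes A) F0, Q ∉ Set.range G.n0 →
      -(((p ^ n : ℕ) : ℤ) * baseZero G O Q) ≤ Finsupp.mapDomain G.r D (NPt.zero Q) := by
    intro Q _
    rw [hmapD, hOb, mapDomain_base_zero]
    have := Fermat.Agent.H94.ORD.ordMove_mapDomain_nonneg G.r E hEnn (NPt.zero Q)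
    nlinarith
  -- BAL
  obtain ⟨c, κ, hc1, hc2, -, -, -, -, hnodeD, hooD, h0D⟩ :=
    H.bal hp hA hbase n f gk hf0 h1 h2 D hD hnode hoo h0
  -- `r_* E = r_* (∑ O i)`
  have hmap : Finsupp.mapDomain G.r E = Finsupp.mapDomain G.r Ob := by
    ext y
    rcases y with Q | Q | ν
    · by_cases hQ : Q ∈ Set.range G.nOo
      · rw [Fermat.Agent.H94.ORD.ordMove_mapDomain_eq_zero G.r E (NPt.oo Q)
            (fun a ha => absurd hQ (H.r_oo a Q ha)),
          Fermat.Agent.H94.ORD.ordMove_mapDomain_eq_zero G.r Ob (NPt.oo Q)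
            (fun a ha => absurd hQ (H.r_oo a Q ha))]
      · have h := hooD Q hQ
        rw [hmapD] at h
        rcases mul_eq_zero.mp h with h | h
        · exact absurd h hmpos.ne'
        · exact sub_eq_zero.mp h
    · by_cases hQ : Q ∈ Set.range G.n0
      · rw [Fermat.Agent.H94.ORD.ordMove_mapDomain_eq_zero G.r E (NPt.zero Q)
            (fun a ha => absurd hQ (H.r_zero a Q ha)),
          Fermat.Agent.H94.ORD.ordMove_mapDomain_eq_zero G.r Ob (NPt.zero Q)
            (fun a ha => absurd hQ (H.r_zero a Q ha))]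
      · have h := h0D Q hQ
        rw [hmapD] at h
        rcases mul_eq_zero.mp h with h | h
        · exact absurd h hmpos.ne'
        · exact sub_eq_zero.mp h
    · rw [Fermat.Agent.H94.ORD.ordMove_mapDomain_eq_zero G.r Ob (NPt.node ν)
          (fun a ha => hObnode a ν ha),
        Fermat.Agent.H94.ORD.ordMove_mapDomain_eq_zero G.r E (NPt.node ν)]
      intro a ha
      have h := hnodeD a ν ha
      rw [hDapp, hObnode a ν ha, sub_zero] at h
      rcases mul_eq_zero.mp h with h | h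
      · exact absurd h hmpos.ne'
      · exact h
  rw [hOb] at hmap
  obtain ⟨P, hP, hEP⟩ := Fermat.Agent.H94.ORD.ordMove_exists_points G.r E hEnn O hinj hmap
  refine ⟨P, Df, hP, ⟨f, hf0, hDf⟩, hDfdeg, ?_⟩
  rw [Fermat.Agent.H56.FF.sum_sub_eq, ← hEP, ← hOb, hE]
  abel

/-- **[KUM] (row 1134) : (a') with `c = 1`, representation form.** -/
theorem nodalKummer : NodalKummerStatement := by
  intro N p A Foo F0 _ _ _ _ ι G g hS O t hsys n σ hσ x hx
  haveI : Nonempty ι := hS.node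
  have hprin := hS.pkgL.principal
  obtain ⟨D', gk, hdiv, h1, h2, hmk⟩ :=
    kummer_gen_nodal_of_principal hprin hS.rv hS.gal hS.prime.pos n hσ hx
  obtain ⟨P, Df, hP, hDfp, hDfdeg, hsum⟩ :=
    nodal_move hS.prime hS.liesOver hS.rv hS.pkgL O hsys.inj hsys.base
      (fun i ν => (hsys.coord i).smooth ν) n D' gk hdiv h1 h2
  have hDf0 : (⟨Df, Divisor.mem_degZero.mpr hDfdeg⟩ : Divisor.degZero (K := Qb) (F := FLb N)) ∈
      (Divisor.principal (K := Qb) (F := FLb N)).addSubgroupOf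
        (Divisor.degZero (K := Qb) (F := FLb N)) := by
    rw [AddSubgroup.mem_addSubgroupOf]
    exact hDfp
  refine ⟨P, D' + ⟨Df, Divisor.mem_degZero.mpr hDfdeg⟩, hP, ?_, ?_⟩
  · rw [AddMemClass.coe_add]
    exact hsum
  · rw [← hmk]
    show (QuotientAddGroup.mk D' : Pic0 Qb (FLb N)) =
      QuotientAddGroup.mk (D' + ⟨Df, Divisor.mem_degZero.mpr hDfdeg⟩)
    rw [QuotientAddGroup.mk_add, (QuotientAddGroup.eq_zero_iff _).mpr hDf0, add_zero]

end Fermat.Agent.H20.ORD
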