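/-
helper20 (P-ORD, block B1, leaf (A) [XY](c1), abstract half):

`genDvr_of_factor_tau` = helper41's `genDvr_of_factor` with an EXPLICIT uniformiser `τ` :
if the centre of `P` lies on the component, `τ ∈ O = red (B̄_𝔪)`, `τ⁻¹ ∉ O` and every `z ≠ 0`
is `ε τ ^ n` with `ε ∈ Oˣ`, then there is a place `Q` over the centre of `P` with
`O_Q ⊆ red (B̄_𝔪)` and `ord_Q τ = 1`.

`genOrd_eq_one` : the same conclusion `ord_Q τ = 1` for ANY place `Q` over the centre.
-/
import Fermat.Agent.H41.ORD.DvrAbs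

set_option autoImplicit false
set_option linter.unusedSectionVars false
set_option linter.style.haveILetI false
set_option linter.unusedVariables false

noncomputable section

open AlgebraicCurve ModularCurve

namespace Fermat.Agent.H20.ORD

open Fermat.Agent.H72.FF Fermat.Agent.H18.ORD Fermat.Agent.H84.ORD Fermat.Agent.H41.ORD

section Gen

variable {N : ℕ} [NeZero N] {A : ValuationSubring Qb} {Fk : Type} [Field Fk]
  [Algebra (kRes A) Fk] {V : Subring (FLb N)} {red : V →+* Fk}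

variable (P : Place Qb (FLb N))

/-- **The order of an explicit uniformiser** : at ANY place `Q` over the centre of `P`, a `τ`
which factorises all of `Fkˣ` modulo the units of `O = red (B̄_𝔪)` has order one. -/
theorem genOrd_eq_one (H : CompSoft A V red)
    (τ : Fk) (hτ : GenLocal A V red P τ) (hτi : ¬ GenLocal A V red P τ⁻¹)
    (hfac : ∀ z : Fk, z ≠ 0 → ∃ (n : ℤ) (ε : Fk), GenLocal A V red P ε ∧
      GenLocal A V red P ε⁻¹ ∧ z = ε * τ ^ n)
    (Q : Place (kRes A) Fk) (hQ : GenSpec V red (nmCentre A P) Q)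
    (hloc : ∀ z ∈ Q.toValuationSubring, GenLocal A V red P z) : Q.ord τ = 1 := by
  classical
  have hτ0 : τ ≠ 0 := by
    intro h0
    apply hτi
    rw [h0, inv_zero]
    exact genLocal_zero P H
  -- `0 < ord τ`
  have h1 : 0 ≤ Q.ord τ := Fermat.Agent.H23.ord_nonneg_of_mem Q (H.local_mem P hQ hτ)
  have h2 : Q.ord τ ≠ 0 := by
    intro h0
    apply hτi
    apply hloc
    apply Fermat.Agent.H23.mem_of_ord_nonneg Q
    rw [Q.ord_inv, h0]
    norm_num
  -- a uniformiser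
  obtain ⟨π, -, hπ⟩ := Fermat.Agent.H23.exists_irreducible_ord_one Q
  have hπ0 : (π : Fk) ≠ 0 := by
    intro h0
    rw [h0, Place.ord_zero] at hπ
    omega
  obtain ⟨n, ε, hε, hεi, e⟩ := hfac (π : Fk) hπ0
  have hε0 : ε ≠ 0 := by
    intro h0
    rw [h0, zero_mul] at e
    exact hπ0 e
  have hεord : Q.ord ε = 0 := by
    have a := Fermat.Agent.H23.ord_nonneg_of_mem Q (H.local_mem P hQ hε)
    have b := Fermat.Agent.H23.ord_nonneg_of_mem Q (H.local_mem P hQ hεi)
    rw [Q.ord_inv] at b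
    omega
  rw [e, Q.ord_mul hε0 (zpow_ne_zero n hτ0), hεord, zero_add, Q.ord_zpow] at hπ
  -- `n * ord τ = 1`, `ord τ ≥ 1`
  have h3 : 0 < Q.ord τ := lt_of_le_of_ne h1 (Ne.symm h2)
  have h4 : Q.ord τ ∣ 1 := Dvd.intro_left n hπ
  exact Int.eq_one_of_dvd_one h1 h4

/-- **[DVR] from a factorisation with an explicit uniformiser.** -/
theorem genDvr_of_factor_tau (H : CompSoft A V red)
    (hideal : ∀ f ∈ nmChart N A (nmY A P), ∀ h : f ∈ V, red ⟨f, h⟩ = 0 → f ∈ nmMax A P)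
    (τ : Fk) (hτ : GenLocal A V red P τ) (hτi : ¬ GenLocal A V red P τ⁻¹)
    (hfac : ∀ z : Fk, z ≠ 0 → ∃ (n : ℤ) (ε : Fk), GenLocal A V red P ε ∧
      GenLocal A V red P ε⁻¹ ∧ z = ε * τ ^ n) :
    ∃ Q : Place (kRes A) Fk, GenSpec V red (nmCentre A P) Q ∧
      (∀ z ∈ Q.toValuationSubring, GenLocal A V red P z) ∧ Q.ord τ = 1 := by
  obtain ⟨Q, hQ, hloc⟩ := genDvr_of_factor P H hideal ⟨τ, hτ, hτi, hfac⟩
  exact ⟨Q, hQ, hloc, genOrd_eq_one P H τ hτ hτi hfac Q hQ hloc⟩

end Gen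

end Fermat.Agent.H20.ORD
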