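/-
helper20 (P-ORD, block B1, NONEMPTY): THE GENUS BRIDGE

  `genusBridge N : (genusFF ℚ̄ (ℚ̄(X₀(N))) : ℚ) = genusFormula N`.

The frozen S24 is about `AlgebraicCurve.genus` (degree of the canonical divisor); the nodal count
`[NC]` / `genus_eq` of P-ORD is about the Riemann genus `genusFF = dim H¹(0)`.  The bridge is
Riemann-Hurwitz for the Riemann genus (helper56, `Fermat.Agent.H56.RH.hurwitz`, equality clause in
characteristic `0`) over the `j`-line, with the ramification sums of the landed P-GENUS library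
(fundamental identity helper29, local counting helper85, modular data helper23):

  `∑ᶠ v, (ramIdx x v - 1) = ∑_{a ∈ S} (n - #orbits ε_a) + (n - #orbits ε_∞)`   (`hurwitzSum`).
-/
import Fermat.Agent.H17.ESD.BranchJ
import Fermat.Agent.H56.RH.HurwitzFinal
import Fermat.Agent.H58.RR.Modular
import Fermat.Agent.H58.RR.ESD

set_option autoImplicit false
set_option linter.unusedSectionVars false
set_option linter.style.haveILetI false
set_option synthInstance.maxHeartbeats 400000

noncomputable section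

open AlgebraicCurve IntermediateField

namespace Fermat.Agent.H20.ORD

open Fermat.Agent.H23 Fermat.Agent.H27.ESD Fermat.Agent.H17.ESD

section General

variable {K F : Type} [Field K] [Field F] [Algebra K F] [IsAlgClosed K] [CharZero K]

/-- `ramIdx - 1` at a zero of `x - a`. -/
theorem gb_ramIdx_sub_one_of_pos (v : Place K F) (x : F) {a : K}
    (ha : 0 < v.ord (x - algebraMap K F a)) :
    ((ramIdx x v : ℕ) : ℤ) - 1 = v.ord (x - algebraMap K F a) - 1 := by
  rw [ramIdx_of_ord_sub_pos v x ha, Int.toNat_of_nonneg ha.le]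

/-- `ramIdx - 1` at a pole of `x`. -/
theorem gb_ramIdx_sub_one_of_pole (v : Place K F) (x : F) (h : 0 < v.ord x⁻¹) :
    ((ramIdx x v : ℕ) : ℤ) - 1 = v.ord x⁻¹ - 1 := by
  have h' : v.ord x < 0 := by
    rw [v.ord_inv] at h
    omega
  rw [ramIdx_of_ord_neg v x h', v.ord_inv, Int.toNat_of_nonneg (by omega)]

/-- **The ramification sum of `x`** in terms of the local uniformisation data. -/
theorem hurwitzSum (x : F) (hx : Transcendental K x) (hfin : FiniteDimensional K⟮x⟯ F)
    (S : Finset K) (L : ∀ a : K, LocalDatum K F (x - algebraMap K F a))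
    (Linf : LocalDatum K F x⁻¹)
    (hcard : ∀ a, Fintype.card (L a).I = Module.finrank K⟮x⟯ F)
    (hcardinf : Fintype.card Linf.I = Module.finrank K⟮x⟯ F)
    (hS : ∀ a, a ∉ S → (L a).ε = 1) :
    (∀ v : Place K F, ramIdx x v ≠ 0) ∧
    ∑ᶠ v : Place K F, (((ramIdx x v : ℕ) : ℤ) - 1) =
      ∑ a ∈ S, ((Module.finrank K⟮x⟯ F : ℤ) - numOrbits (L a).ε)
        + ((Module.finrank K⟮x⟯ F : ℤ) - numOrbits Linf.ε) := by
  classical
  have hFI := Fermat.Agent.H29.fundamentalIdentity
  have hLC := Fermat.Agent.H85.localCounting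
  set n : ℤ := (Module.finrank K⟮x⟯ F : ℤ) with hn
  -- per-point packages
  have P : ∀ a : K, (∀ v : Place K F, v.deg = 1) ∧
      {v : Place K F | 0 < v.ord (x - algebraMap K F a)}.Finite ∧
      ∑ᶠ v ∈ {v : Place K F | 0 < v.ord (x - algebraMap K F a)},
        v.ord (x - algebraMap K F a) = n ∧
      ∑ᶠ v ∈ {v : Place K F | 0 < v.ord (x - algebraMap K F a)},
        (v.ord (x - algebraMap K F a) - 1) = n - numOrbits (L a).ε := by
    intro a
    have hyx := adjoin_sub_const (K := K) x a
    have hfiny : FiniteDimensional K⟮x - algebraMap K F a⟯ F := by rw [hyx]; exact hfin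
    have hrank : Module.finrank K⟮x - algebraMap K F a⟯ F = Module.finrank K⟮x⟯ F := by
      rw [hyx]
    obtain ⟨hdeg, hVfin, hsum⟩ := hFI K F _ (transcendental_sub_const hx a) hfiny
    rw [hrank] at hsum
    have hsum' : ∑ᶠ v ∈ {v : Place K F | 0 < v.ord (x - algebraMap K F a)},
        v.ord (x - algebraMap K F a) = (Fintype.card (L a).I : ℤ) := by
      rw [hsum, hcard a]
    obtain ⟨-, hcount⟩ := hLC K F _ (L a) hdeg hVfin hsum'
    rw [hcard a] at hcount
    exact ⟨hdeg, hVfin, hsum, hcount⟩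
  have Pinf : {v : Place K F | 0 < v.ord x⁻¹}.Finite ∧
      ∑ᶠ v ∈ {v : Place K F | 0 < v.ord x⁻¹}, v.ord x⁻¹ = n ∧
      ∑ᶠ v ∈ {v : Place K F | 0 < v.ord x⁻¹}, (v.ord x⁻¹ - 1) = n - numOrbits Linf.ε := by
    have hyx := adjoin_inv (K := K) x
    have hfiny : FiniteDimensional K⟮x⁻¹⟯ F := by rw [hyx]; exact hfin
    have hrank : Module.finrank K⟮x⁻¹⟯ F = Module.finrank K⟮x⟯ F := by rw [hyx]
    obtain ⟨hdeg, hVfin, hsum⟩ := hFI K F _ (transcendental_inv hx) hfiny
    rw [hrank] at hsum
    have hsum' : ∑ᶠ v ∈ {v : Place K F | 0 < v.ord x⁻¹}, v.ord x⁻¹ =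
        (Fintype.card Linf.I : ℤ) := by
      rw [hsum, hcardinf]
    obtain ⟨-, hcount⟩ := hLC K F _ Linf hdeg hVfin hsum'
    rw [hcardinf] at hcount
    exact ⟨hVfin, hsum, hcount⟩
  have hdeg : ∀ v : Place K F, v.deg = 1 := (P 0).1
  -- the function `e - 1`
  set g : Place K F → ℤ := fun v => ((ramIdx x v : ℕ) : ℤ) - 1 with hg
  have hg_fin : ∀ (a : K) (v : Place K F), 0 < v.ord (x - algebraMap K F a) →
      g v = v.ord (x - algebraMap K F a) - 1 := fun a v hv =>
    gb_ramIdx_sub_one_of_pos v x hv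
  have hg_inf : ∀ v : Place K F, 0 < v.ord x⁻¹ → g v = v.ord x⁻¹ - 1 := fun v hv =>
    gb_ramIdx_sub_one_of_pole v x hv
  -- the finite sets
  set V : K → Finset (Place K F) := fun a => (P a).2.1.toFinset with hV
  set Vinf : Finset (Place K F) := Pinf.1.toFinset with hVinf
  have hmemV : ∀ a v, v ∈ V a ↔ 0 < v.ord (x - algebraMap K F a) := by
    intro a v; simp [hV]
  have hmemVinf : ∀ v, v ∈ Vinf ↔ 0 < v.ord x⁻¹ := by
    intro v; simp [hVinf]
  -- unramified outside `S`
  have hunram : ∀ a, a ∉ S → ∀ v ∈ V a, g v = 0 := by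
    intro a ha v hv
    have hsum := (P a).2.2.2
    rw [hS a ha] at hsum
    have horb : (numOrbits (1 : Equiv.Perm (L a).I) : ℤ) = n := by
      have h1 : numOrbits (1 : Equiv.Perm (L a).I) = Fintype.card (L a).I := by
        unfold numOrbits
        rw [← Nat.card_eq_fintype_card]
        refine Nat.card_congr (Equiv.symm ?_)
        refine Equiv.ofBijective (Quotient.mk _) ⟨?_, Quotient.mk_surjective⟩
        intro i j hij
        have := Quotient.exact hij
        obtain ⟨k, hk⟩ := this
        simpa using hk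
      rw [h1, hcard a]
    rw [horb, sub_self, finsum_mem_eq_finite_toFinset_sum _ (P a).2.1] at hsum
    have hnonneg : ∀ w ∈ (P a).2.1.toFinset, 0 ≤ w.ord (x - algebraMap K F a) - 1 := by
      intro w hw
      have : 0 < w.ord (x - algebraMap K F a) := by simpa using hw
      omega
    have hzero := (Finset.sum_eq_zero_iff_of_nonneg hnonneg).mp hsum v hv
    rw [hg_fin a v ((hmemV a v).mp hv)]
    exact hzero
  set W : Finset (Place K F) := (S.biUnion V) ∪ Vinf with hW
  have hsupp : Function.support g ⊆ (W : Set (Place K F)) := by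
    intro v hv
    rw [Function.mem_support] at hv
    rcases exists_point hdeg hx v with hinf | ⟨a, ha⟩
    · exact Finset.mem_coe.2 (Finset.mem_union_right _ ((hmemVinf v).mpr hinf))
    · by_cases haS : a ∈ S
      · exact Finset.mem_coe.2
          (Finset.mem_union_left _ (Finset.mem_biUnion.mpr ⟨a, haS, (hmemV a v).mpr ha⟩))
      · exact absurd (hunram a haS v ((hmemV a v).mpr ha)) hv
  have hdisj1 : Disjoint (S.biUnion V) Vinf := by
    rw [Finset.disjoint_left]
    intro v hv hv'
    obtain ⟨a, _, ha⟩ := Finset.mem_biUnion.mp hv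
    exact not_pos_inv_pos v x ((hmemV a v).mp ha) ((hmemVinf v).mp hv')
  have hdisj2 : (S : Set K).PairwiseDisjoint V := by
    intro a _ b _ hab
    show Disjoint (V a) (V b)
    rw [Finset.disjoint_left]
    intro v hva hvb
    exact not_pos_pos_of_ne v x hab ((hmemV a v).mp hva) ((hmemV b v).mp hvb)
  refine ⟨?_, ?_⟩
  · -- ramification indices are positive
    intro v
    rcases exists_point hdeg hx v with hinf | ⟨a, ha⟩
    · have h : ((ramIdx x v : ℕ) : ℤ) - 1 = v.ord x⁻¹ - 1 :=
        gb_ramIdx_sub_one_of_pole v x hinf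
      intro h0
      rw [h0] at h
      simp only [Nat.cast_zero, zero_sub] at h
      omega
    · have h : ((ramIdx x v : ℕ) : ℤ) - 1 = v.ord (x - algebraMap K F a) - 1 :=
        gb_ramIdx_sub_one_of_pos v x ha
      intro h0
      rw [h0] at h
      simp only [Nat.cast_zero, zero_sub] at h
      omega
  · rw [finsum_eq_sum_of_support_subset g hsupp, hW, Finset.sum_union hdisj1,
      Finset.sum_biUnion hdisj2]
    have hA : ∀ a ∈ S, ∑ v ∈ V a, g v = n - numOrbits (L a).ε := by
      intro a _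
      have hsum := (P a).2.2.2
      rw [finsum_mem_eq_finite_toFinset_sum _ (P a).2.1] at hsum
      rw [← hsum]
      exact Finset.sum_congr rfl fun v hv => hg_fin a v ((hmemV a v).mp hv)
    have hB : ∑ v ∈ Vinf, g v = n - numOrbits Linf.ε := by
      have hsum := Pinf.2.2
      rw [finsum_mem_eq_finite_toFinset_sum _ Pinf.1] at hsum
      rw [← hsum]
      exact Finset.sum_congr rfl fun v hv => hg_inf v ((hmemVinf v).mp hv)
    rw [Finset.sum_congr rfl hA, hB]

/-- **Riemann-Hurwitz for the Riemann genus, characteristic `0`, local-datum form.** -/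
theorem genusFF_riemannHurwitz [Infinite K] (x : F) (hx : Transcendental K x)
    (hfin : FiniteDimensional K⟮x⟯ F) (hRR : Fermat.Agent.H58.RRHyp K F)
    (S : Finset K) (L : ∀ a : K, LocalDatum K F (x - algebraMap K F a))
    (Linf : LocalDatum K F x⁻¹)
    (hcard : ∀ a, Fintype.card (L a).I = Module.finrank K⟮x⟯ F)
    (hcardinf : Fintype.card Linf.I = Module.finrank K⟮x⟯ F)
    (hS : ∀ a, a ∉ S → (L a).ε = 1) :
    2 * (genusFF K F : ℤ) - 2 + 2 * (Module.finrank K⟮x⟯ F : ℤ) =
      ∑ a ∈ S, ((Module.finrank K⟮x⟯ F : ℤ) - numOrbits (L a).ε)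
        + ((Module.finrank K⟮x⟯ F : ℤ) - numOrbits Linf.ε) := by
  obtain ⟨hpos, hsum⟩ := hurwitzSum x hx hfin S L Linf hcard hcardinf hS
  haveI : CharZero K⟮x⟯ := charZero_of_injective_algebraMap (algebraMap K K⟮x⟯).injective
  haveI : FiniteDimensional K⟮x⟯ F := hfin
  have hsep : Algebra.IsSeparable K⟮x⟯ F := inferInstance
  obtain ⟨-, -, htame⟩ := Fermat.Agent.H56.RH.hurwitz K F x hx hfin hsep (genusFF K F)
    (Fermat.Agent.H58.riemannPackage_of_rrHyp hRR)
  have h := htame (fun v => Nat.cast_ne_zero.mpr (hpos v))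
  rw [← h, hsum]

end General

/-- **THE GENUS BRIDGE**: the Riemann genus of `ℚ̄(X₀(N))` is the classical genus formula. -/
theorem genusBridge (N : ℕ) [NeZero N] :
    (genusFF (AlgebraicClosure ℚ) ↥(ModularCurve.modularFunctionFieldBar N) : ℚ)
      = ModularCurve.genusFormula N := by
  classical
  obtain ⟨x, hx, hfin, hdeg, a₀, a₁, ha, L, Linf, hL, hLinf, hε, h3, h2, hc⟩ :=
    Fermat.Agent.H23.modularData_of_packages (Fermat.Agent.H17.ESD.analyticStatement_holds N)
      (Fermat.Agent.H23.degreeStatement_holds N) (Fermat.Agent.H85.cosetCombinatorics N)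
  have hS : ∀ a, a ∉ ({a₀, a₁} : Finset (AlgebraicClosure ℚ)) → (L a).ε = 1 := by
    intro a haS
    simp only [Finset.mem_insert, Finset.mem_singleton, not_or] at haS
    exact hε a haS.1 haS.2
  have key := genusFF_riemannHurwitz x hx hfin
    (Fermat.Agent.H58.rrHyp_modularFunctionFieldBar N) {a₀, a₁} L Linf
    (fun a => (hL a).trans hdeg.symm) (hLinf.trans hdeg.symm) hS
  rw [Finset.sum_pair ha, hdeg] at key
  have h3' : (3 : ℚ) * numOrbits (L a₀).ε
      = ModularCurve.dedekindPsi N + 2 * ModularCurve.nuThree N := by exact_mod_cast h3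
  have h2' : (2 : ℚ) * numOrbits (L a₁).ε
      = ModularCurve.dedekindPsi N + ModularCurve.nuTwo N := by exact_mod_cast h2
  have hc' : (numOrbits Linf.ε : ℚ) = ModularCurve.cuspCount N := by exact_mod_cast hc
  have keyQ : (2 : ℚ) * (genusFF (AlgebraicClosure ℚ)
      ↥(ModularCurve.modularFunctionFieldBar N) : ℚ) - 2 + 2 * (ModularCurve.dedekindPsi N : ℚ)
      = ((ModularCurve.dedekindPsi N : ℚ) - numOrbits (L a₀).ε
          + ((ModularCurve.dedekindPsi N : ℚ) - numOrbits (L a₁).ε))
        + ((ModularCurve.dedekindPsi N : ℚ) - numOrbits Linf.ε) := by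
    exact_mod_cast key
  unfold ModularCurve.genusFormula
  linarith

end Fermat.Agent.H20.ORD
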