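/-
helper20 (P-ORD, owner of (a)): THE KUMMER FORM OF (a) FOR `J₀(N)` AND THE TWO GAUSS VALUATIONS.

`F = ℚ̄(X₀(N)) = modularFunctionFieldBar N`, `A` a valuation ring of `ℚ̄` over `p`.

* `vInfBar N p hp A hA` : the Gauss valuation ring `V_∞` of `q`-expansions (`= H42.DS.gaussValBar`);
* `vZeroBar N p hp A hA W` : `V_0 := W⁻¹(V_∞)` for an automorphism `W` of `F / ℚ̄` (Atkin–Lehner);
* `kummerW1 N p hp A hA W n : AddSubgroup (JZero N)` : the Kummer `W1` at level `p ^ n`;
* soft facts (C1), (C2), (C4), (C5) of findings `P-ORD (a) KUMMER FORM` for `V_∞`, `V_0`;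
* `sub_mem_kummerW1` : **(a), `c = 1`**: `σ • x - x ∈ kummerW1 …` for `σ ∈ I_A`, `p ^ n • x = 0`;
* `smul_mem_kummerW1` : **(s)** stability under inertia;  `kummerW1_le_torsion`.

Hypotheses on `W`: it commutes with the coefficientwise action of inertia (`hW`), and ONE function
`e` with `e ≡ 0` at `V_∞`, `e ≡ 1` at `V_0` (`he`; Kronecker congruence).
-/
import Fermat.Agent.H20.ORD.KummerA
import Fermat.Agent.H42.DS.GaussValBar
import Fermat.Agent.H20.ES1.GaussRed
import Fermat.Agent.H57.ES1.GaussNormalForm1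
import Fermat.Agent.H58.RR.Modular
import Fermat.Agent.H64.DecompVal
import Fermat.Agent.H8.InertiaBasic

set_option autoImplicit false
set_option linter.style.haveILetI false
set_option linter.unusedSectionVars false

noncomputable section

namespace Fermat.Agent.H20.ORD

open AlgebraicCurve ModularCurve
open Fermat.Agent.H16 Fermat.Agent.H29.ES1 Fermat.Agent.H42.DS

/-- `ℚ̄`. -/
abbrev QbO : Type := AlgebraicClosure ℚ

/-- The Gauss normal form of the level field of `X₀(N)`. -/
theorem gnfFull (N : ℕ) [NeZero N] : GaussNormalFormGenStatement (modularFunctionFieldFull N) :=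
  Fermat.Agent.H57.ES1.gaussNormalFormGen (Fermat.Agent.H57.ES1.intGenerated_full N)

section Defs

variable (N p : ℕ) [NeZero N] (hp : p.Prime) (A : ValuationSubring QbO) (hA : A.LiesOverPrime p)

/-- `V_∞`: the Gauss valuation ring of `q`-expansions over `ℚ̄`. -/
def vInfBar : ValuationSubring ↥(modularFunctionFieldBar N) :=
  gaussValBar (modularFunctionFieldFull N) A (gnfFull N) p hp hA

/-- `V_0`: the transform of `V_∞` under an automorphism `W` (Atkin–Lehner). -/
def vZeroBar (W : ↥(modularFunctionFieldBar N) ≃ₐ[QbO] ↥(modularFunctionFieldBar N)) :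
    ValuationSubring ↥(modularFunctionFieldBar N) :=
  (vInfBar N p hp A hA).comap
    (W : ↥(modularFunctionFieldBar N) →+* ↥(modularFunctionFieldBar N))

/-- **The Kummer `W1`** of `J₀(N)` at level `p ^ n`: classes `[D]` with `p ^ n • D = div g`,
`g ≡ 1` at both Gauss valuations. -/
def kummerW1 (W : ↥(modularFunctionFieldBar N) ≃ₐ[QbO] ↥(modularFunctionFieldBar N)) (n : ℕ) :
    AddSubgroup (JZero N) :=
  kummerOneUnits QbO (p ^ n) (vInfBar N p hp A hA) (vZeroBar N p hp A hA W)

end Defs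

section Facts

variable {N p : ℕ} [NeZero N] {hp : p.Prime} {A : ValuationSubring QbO} {hA : A.LiesOverPrime p}

theorem mem_vInfBar {f : ↥(modularFunctionFieldBar N)} :
    f ∈ vInfBar N p hp A hA ↔ ∃ r, IsGaussRed A (f : LaurentSeries QbO) r :=
  Iff.rfl

theorem mem_vZeroBar {W : ↥(modularFunctionFieldBar N) ≃ₐ[QbO] ↥(modularFunctionFieldBar N)}
    {f : ↥(modularFunctionFieldBar N)} :
    f ∈ vZeroBar N p hp A hA W ↔ W f ∈ vInfBar N p hp A hA :=
  Iff.rfl

theorem mem_nonunits_vZeroBar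
    {W : ↥(modularFunctionFieldBar N) ≃ₐ[QbO] ↥(modularFunctionFieldBar N)}
    {f : ↥(modularFunctionFieldBar N)} :
    f ∈ (vZeroBar N p hp A hA W).nonunits ↔ W f ∈ (vInfBar N p hp A hA).nonunits := by
  rw [ValuationSubring.mem_nonunits_iff_or, ValuationSubring.mem_nonunits_iff_or,
    mem_vZeroBar, map_inv₀, EmbeddingLike.map_eq_zero_iff]

/-- Reduction `0` means non-unit. -/
theorem mem_nonunits_vInfBar_of_red_zero {f : ↥(modularFunctionFieldBar N)}
    (h : IsGaussRed A (f : LaurentSeries QbO) 0) : f ∈ (vInfBar N p hp A hA).nonunits := by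
  rw [ValuationSubring.mem_nonunits_iff_or]
  by_cases hf : f = 0
  · exact Or.inl hf
  · right
    rintro ⟨s, hs⟩
    have hfL : (f : LaurentSeries QbO) ≠ 0 := fun h0 => hf (Subtype.ext h0)
    have h1 : IsGaussRed A ((f : LaurentSeries QbO) *
        ((f⁻¹ : ↥(modularFunctionFieldBar N)) : LaurentSeries QbO)) (0 * s) :=
      Fermat.Agent.H20.ES1.isGaussRed_mul h hs
    have h2 : (f : LaurentSeries QbO) *
        ((f⁻¹ : ↥(modularFunctionFieldBar N)) : LaurentSeries QbO) = 1 := by
      have : f * f⁻¹ = 1 := mul_inv_cancel₀ hf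
      exact congrArg Subtype.val this
    rw [h2, zero_mul] at h1
    have := Fermat.Agent.H20.ES1.isGaussRed_unique h1
      (Fermat.Agent.H20.ES1.isGaussRed_one (A := A))
    exact zero_ne_one this

/-- (C1) at `V_∞`. -/
theorem algebraMap_mem_vInfBar {a : QbO} (ha : a ∈ A) :
    algebraMap QbO ↥(modularFunctionFieldBar N) a ∈ vInfBar N p hp A hA := by
  rw [mem_vInfBar]
  have h := Fermat.Agent.H20.ES1.isGaussRed_coeffMap (A := A) (HahnSeries.C (⟨a, ha⟩ : A))
  rw [Fermat.Agent.H20.ES1.coeffMap_subtype_C] at h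
  exact ⟨_, h⟩

/-- (C1) at `V_0`. -/
theorem algebraMap_mem_vZeroBar
    (W : ↥(modularFunctionFieldBar N) ≃ₐ[QbO] ↥(modularFunctionFieldBar N)) {a : QbO}
    (ha : a ∈ A) :
    algebraMap QbO ↥(modularFunctionFieldBar N) a ∈ vZeroBar N p hp A hA W := by
  rw [mem_vZeroBar, W.commutes]
  exact algebraMap_mem_vInfBar ha

/-- A valuation is `1` if the element is nonzero and integral together with its inverse. -/
theorem valuation_eq_one_of_mem {F : Type*} [Field F] (V : ValuationSubring F) {y : F}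
    (hy : y ≠ 0) (h1 : y ∈ V) (h2 : y⁻¹ ∈ V) : V.valuation y = 1 := by
  have h3 : V.valuation y ≤ 1 := (ValuationSubring.valuation_le_one_iff V y).mpr h1
  have h4 : V.valuation y⁻¹ ≤ 1 := (ValuationSubring.valuation_le_one_iff V _).mpr h2
  have hne : V.valuation y ≠ 0 := (Valuation.ne_zero_iff _).mpr hy
  rw [map_inv₀] at h4
  refine le_antisymm h3 ?_
  by_contra hlt
  rw [not_le] at hlt
  have h5 : (1 : V.ValueGroup) < (V.valuation y)⁻¹ :=
    (one_lt_inv₀ (zero_lt_iff.mpr hne)).mpr hlt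
  exact absurd h4 (not_le.mpr h5)

/-- (C2) at `V_∞`: the value group of `V_∞` is the value group of the constants. -/
theorem exists_const_unit_vInfBar {f : ↥(modularFunctionFieldBar N)} (hf : f ≠ 0) :
    ∃ c : QbO, c ≠ 0 ∧
      (vInfBar N p hp A hA).valuation (algebraMap QbO ↥(modularFunctionFieldBar N) c * f) = 1 := by
  obtain ⟨c, a, b, ha, hb, hc, hra, hrb, h⟩ := gnfFull N A p hp hA f hf
  have hbL : coeffMap A.subtype b ≠ 0 :=
    Fermat.Agent.H20.ES1.coeffMap_subtype_ne_zero_of_residue' A b hrb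
  have haL : coeffMap A.subtype a ≠ 0 :=
    Fermat.Agent.H20.ES1.coeffMap_subtype_ne_zero_of_residue' A a hra
  have hcF : algebraMap QbO ↥(modularFunctionFieldBar N) c ≠ 0 :=
    (map_ne_zero (algebraMap QbO ↥(modularFunctionFieldBar N))).mpr hc
  set a' : ↥(modularFunctionFieldBar N) := ⟨coeffMap A.subtype a, ha⟩ with ha'
  set b' : ↥(modularFunctionFieldBar N) := ⟨coeffMap A.subtype b, hb⟩ with hb'
  have ha0 : a' ≠ 0 := fun h0 => haL (congrArg Subtype.val h0)
  have hb0 : b' ≠ 0 := fun h0 => hbL (congrArg Subtype.val h0)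
  have key : algebraMap QbO ↥(modularFunctionFieldBar N) c⁻¹ * f = a' / b' := by
    rw [map_inv₀, eq_div_iff hb0, mul_assoc, h, ← mul_assoc, inv_mul_cancel₀ hcF, one_mul]
  refine ⟨c⁻¹, inv_ne_zero hc, ?_⟩
  rw [key]
  have hRa : IsGaussRed A (a' : LaurentSeries QbO) (coeffMap (IsLocalRing.residue A) a) :=
    Fermat.Agent.H20.ES1.isGaussRed_coeffMap a
  have hRb : IsGaussRed A (b' : LaurentSeries QbO) (coeffMap (IsLocalRing.residue A) b) :=
    Fermat.Agent.H20.ES1.isGaussRed_coeffMap b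
  refine valuation_eq_one_of_mem _ (div_ne_zero ha0 hb0) ?_ ?_
  · rw [mem_vInfBar]
    exact ⟨_, Fermat.Agent.H20.ES1.isGaussRed_div hRa hRb hrb⟩
  · rw [inv_div, mem_vInfBar]
    exact ⟨_, Fermat.Agent.H20.ES1.isGaussRed_div hRb hRa hra⟩

/-- (C2) at `V_0`. -/
theorem exists_const_unit_vZeroBar
    (W : ↥(modularFunctionFieldBar N) ≃ₐ[QbO] ↥(modularFunctionFieldBar N))
    {f : ↥(modularFunctionFieldBar N)} (hf : f ≠ 0) :
    ∃ c : QbO, c ≠ 0 ∧
      (vZeroBar N p hp A hA W).valuation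
        (algebraMap QbO ↥(modularFunctionFieldBar N) c * f) = 1 := by
  have hWf : W f ≠ 0 := (EmbeddingLike.map_ne_zero_iff).2 hf
  obtain ⟨c, hc, h⟩ := exists_const_unit_vInfBar (hp := hp) (A := A) (hA := hA) hWf
  refine ⟨c, hc, ?_⟩
  have hcF : algebraMap QbO ↥(modularFunctionFieldBar N) c ≠ 0 :=
    (map_ne_zero (algebraMap QbO ↥(modularFunctionFieldBar N))).mpr hc
  have hy0 : algebraMap QbO ↥(modularFunctionFieldBar N) c * W f ≠ 0 := mul_ne_zero hcF hWf
  have e1 : W (algebraMap QbO ↥(modularFunctionFieldBar N) c * f) =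
      algebraMap QbO ↥(modularFunctionFieldBar N) c * W f := by
    rw [map_mul, W.commutes]
  have h1 : algebraMap QbO ↥(modularFunctionFieldBar N) c * W f ∈ vInfBar N p hp A hA :=
    (ValuationSubring.valuation_le_one_iff _ _).mp h.le
  have h2 : (algebraMap QbO ↥(modularFunctionFieldBar N) c * W f)⁻¹ ∈ vInfBar N p hp A hA := by
    apply (ValuationSubring.valuation_le_one_iff _ _).mp
    rw [map_inv₀, h, inv_one]
  refine valuation_eq_one_of_mem _ (mul_ne_zero hcF hf) ?_ ?_
  · rw [mem_vZeroBar, e1]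
    exact h1
  · rw [mem_vZeroBar, map_inv₀, e1]
    exact h2

end Facts

section Inertia

variable {N p : ℕ} [NeZero N] {hp : p.Prime} {A : ValuationSubring QbO} {hA : A.LiesOverPrime p}

/-- (C4) at `V_∞`: inertia acts trivially on the residue field of the Gauss valuation. -/
theorem inertia_sub_mem_nonunits_vInfBar {σ : QbO ≃ₐ[ℚ] QbO} (hσ : σ ∈ A.inertiaSubgroupIn ℚ)
    {y : ↥(modularFunctionFieldBar N)} (hy : y ∈ vInfBar N p hp A hA) :
    arithmeticGalois (modularFunctionFieldFull N) σ • y - y ∈ (vInfBar N p hp A hA).nonunits := by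
  obtain ⟨r, hr⟩ := hy
  obtain ⟨τ, hτ, rfl⟩ := hσ
  have hker : MulSemiringAction.toRingAut (A.decompositionSubgroup ℚ)
      (IsLocalRing.ResidueField A) τ = 1 := hτ
  have h1 := Fermat.Agent.H20.ES1.isGaussRed_gal hr τ
  have hid : (MulSemiringAction.toRingHom (A.decompositionSubgroup ℚ)
      (IsLocalRing.ResidueField A) τ) = RingHom.id _ := by
    ext x
    exact congrArg (fun e : RingAut (IsLocalRing.ResidueField A) => e x) hker
  rw [hid, coeffMap_id] at h1
  apply mem_nonunits_vInfBar_of_red_zero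
  have h2 := dg_isGaussRed_add h1 (dg_isGaussRed_neg hr)
  rw [add_neg_cancel] at h2
  have e1 : ((arithmeticGalois (modularFunctionFieldFull N)
      ((A.decompositionSubgroup ℚ).subtype τ) • y - y : ↥(modularFunctionFieldBar N)) :
      LaurentSeries QbO) =
      coeffMap (((τ : QbO ≃ₐ[ℚ] QbO) : QbO →+* QbO)) (y : LaurentSeries QbO) +
        -(y : LaurentSeries QbO) := by
    rw [← sub_eq_add_neg]
    rfl
  rw [e1]
  exact h2

/-- (C4) at `V_0`, for `W` commuting with inertia. -/
theorem inertia_sub_mem_nonunits_vZeroBar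
    (W : ↥(modularFunctionFieldBar N) ≃ₐ[QbO] ↥(modularFunctionFieldBar N))
    {σ : QbO ≃ₐ[ℚ] QbO} (hσ : σ ∈ A.inertiaSubgroupIn ℚ)
    (hW : ∀ y : ↥(modularFunctionFieldBar N),
      W (arithmeticGalois (modularFunctionFieldFull N) σ • y) =
        arithmeticGalois (modularFunctionFieldFull N) σ • W y)
    {y : ↥(modularFunctionFieldBar N)} (hy : y ∈ vZeroBar N p hp A hA W) :
    arithmeticGalois (modularFunctionFieldFull N) σ • y - y ∈
      (vZeroBar N p hp A hA W).nonunits := by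
  rw [mem_nonunits_vZeroBar, map_sub, hW]
  exact inertia_sub_mem_nonunits_vInfBar hσ (mem_vZeroBar.mp hy)

/-- (C5): inertia preserves the valuation of `A`. -/
theorem inertia_valuation_eq {σ : QbO ≃ₐ[ℚ] QbO} (hσ : σ ∈ A.inertiaSubgroupIn ℚ) (c : QbO) :
    A.valuation (SemilinearAut.baseAut (arithmeticGalois (modularFunctionFieldFull N) σ) c) =
      A.valuation c :=
  haveI : Algebra.IsAlgebraic ℚ QbO := AlgebraicClosure.isAlgebraic ℚ
  Fermat.Agent.H64.valuation_apply_eq_of_stable A σ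
    (fun _ => Fermat.Agent.H8.apply_mem_iff_of_mem_decomposition A
      (Fermat.Agent.H8.mem_decomposition_of_mem_inertiaSubgroupIn A hσ)) c

end Inertia

section Main

variable (N p : ℕ) [NeZero N] (hp : p.Prime) (A : ValuationSubring QbO) (hA : A.LiesOverPrime p)
  (W : ↥(modularFunctionFieldBar N) ≃ₐ[QbO] ↥(modularFunctionFieldBar N))

/-- **(a) with `c = 1` for the Kummer `W1` of `J₀(N)`.** -/
theorem sub_mem_kummerW1
    (he : ∃ e : ↥(modularFunctionFieldBar N),
      e ∈ (vInfBar N p hp A hA).nonunits ∧ e - 1 ∈ (vZeroBar N p hp A hA W).nonunits)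
    (n : ℕ) {σ : QbO ≃ₐ[ℚ] QbO} (hσ : σ ∈ A.inertiaSubgroupIn ℚ)
    (hW : ∀ y : ↥(modularFunctionFieldBar N),
      W (arithmeticGalois (modularFunctionFieldFull N) σ • y) =
        arithmeticGalois (modularFunctionFieldFull N) σ • W y)
    {x : JZero N} (hx : p ^ n • x = 0) :
    σ • x - x ∈ kummerW1 N p hp A hA W n := by
  haveI := Fermat.Agent.H58.hasPrincipalDivisors_modularFunctionFieldBar N
  have hx' : ((p ^ n : ℕ) : ℤ) • x = 0 := by
    rw [natCast_zsmul]
    exact hx
  exact sub_mem_kummerOneUnits (pow_pos hp.pos n)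
    (fun u => IsAlgClosed.exists_pow_nat_eq u (pow_pos hp.pos n)) A
    (fun _ ha => algebraMap_mem_vInfBar ha) (fun _ ha => algebraMap_mem_vZeroBar W ha)
    (fun _ hf => exists_const_unit_vInfBar hf) (fun _ hf => exists_const_unit_vZeroBar W hf)
    he (arithmeticGalois (modularFunctionFieldFull N) σ)
    (fun c _ => inertia_valuation_eq hσ c)
    (fun _ hy => inertia_sub_mem_nonunits_vInfBar hσ hy)
    (fun _ hy => inertia_sub_mem_nonunits_vZeroBar W hσ hW hy) hx'

/-- **(s)**: the Kummer `W1` is stable under inertia. -/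
theorem smul_mem_kummerW1 (n : ℕ) {σ : QbO ≃ₐ[ℚ] QbO} (hσ : σ ∈ A.inertiaSubgroupIn ℚ)
    (hW : ∀ y : ↥(modularFunctionFieldBar N),
      W (arithmeticGalois (modularFunctionFieldFull N) σ • y) =
        arithmeticGalois (modularFunctionFieldFull N) σ • W y)
    {x : JZero N} (hx : x ∈ kummerW1 N p hp A hA W n) :
    σ • x ∈ kummerW1 N p hp A hA W n :=
  smul_mem_kummerOneUnits (arithmeticGalois (modularFunctionFieldFull N) σ)
    (fun _ hy => inertia_sub_mem_nonunits_vInfBar hσ hy)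
    (fun _ hy => inertia_sub_mem_nonunits_vZeroBar W hσ hW hy) hx

/-- The Kummer `W1` is killed by `p ^ n`. -/
theorem nsmul_eq_zero_of_mem_kummerW1 (n : ℕ) {x : JZero N}
    (hx : x ∈ kummerW1 N p hp A hA W n) : p ^ n • x = 0 := by
  have h := kummerOneUnits_le_torsion (K := QbO) (p ^ n) (vInfBar N p hp A hA)
    (vZeroBar N p hp A hA W) hx
  rw [Pic0.mem_torsion, natCast_zsmul] at h
  exact h

end Main

end Fermat.Agent.H20.ORD
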